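/-
S21 (Eichler–Shimura), package P2 (helper12): periods of parabolic elements vanish.

* `S21_p2_exists_conj_upper`  : γ ∈ SL(2,ℤ), tr(γ)² = 4 ⇒ ∃ δ ∈ SL(2,ℤ), (δ⁻¹ γ δ) 1 0 = 0
* `S21_p2_exists_conj_T`      : ... ⇒ ∃ δ n, ∀ w, γ • (δ • w) = δ • (T^n • w)
* `S21_p2_period_eq_zero`     : HasEquivariantPrimitive ⇒ period γ = 0 for parabolic γ ∈ Γ₀(N)
* `S21_p2_periodMap_mem`      : ∀ f, periodMap N f ∈ parabolicHoms ℂ (Gamma0 N) ℂ
* `S21_p2_range_le`           : range (periodHomPair N) ≤ parabolicHoms ℂ (Gamma0 N) ℂ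
-/
import Mathlib
import Fermat.Prelude.Def_ModularCurve_PeriodHomPair

set_option autoImplicit false

open UpperHalfPlane CongruenceSubgroup Filter Topology ModularGroup
open scoped MatrixGroups

namespace Fermat.Agent.S21

/-- A parabolic (trace² = 4) element of `SL(2,ℤ)` is conjugate in `SL(2,ℤ)` to an upper triangular
matrix. -/
theorem S21_p2_exists_conj_upper (γ : SL(2, ℤ))
    (htr : (γ : Matrix (Fin 2) (Fin 2) ℤ).trace ^ 2 = 4) :
    ∃ δ : SL(2, ℤ), (δ⁻¹ * γ * δ) 1 0 = 0 := by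
  have hdet : γ 0 0 * γ 1 1 - γ 0 1 * γ 1 0 = 1 := by
    have := γ.det_coe
    rwa [Matrix.det_fin_two] at this
  rw [Matrix.trace_fin_two] at htr
  -- the quadratic form c p² + (d - a) p q - b q² has discriminant tr² - 4 = 0
  have key : ∀ δ : SL(2, ℤ), (δ⁻¹ * γ * δ) 1 0 =
      γ 1 0 * (δ 0 0) ^ 2 + (γ 1 1 - γ 0 0) * (δ 0 0) * (δ 1 0) - γ 0 1 * (δ 1 0) ^ 2 := by
    intro δ
    simp only [Matrix.SpecialLinearGroup.coe_mul, Matrix.SpecialLinearGroup.coe_inv,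
      Matrix.adjugate_fin_two, Matrix.mul_apply, Fin.sum_univ_two, Matrix.of_apply,
      Matrix.cons_val', Matrix.cons_val_zero, Matrix.cons_val_one, Matrix.cons_val_fin_one]
    ring
  by_cases h0 : γ 0 0 - γ 1 1 = 0 ∧ 2 * γ 1 0 = 0
  · refine ⟨1, ?_⟩
    rw [key]
    have hc : γ 1 0 = 0 := by omega
    simp [hc]
  · set g : ℤ := (Int.gcd (γ 0 0 - γ 1 1) (2 * γ 1 0) : ℤ) with hg
    have hg0 : g ≠ 0 := by
      rw [hg]
      intro h
      apply h0
      have := Int.gcd_eq_zero_iff.mp (by exact_mod_cast h)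
      exact this
    obtain ⟨p, hp⟩ : (g : ℤ) ∣ γ 0 0 - γ 1 1 := Int.gcd_dvd_left _ _
    obtain ⟨q, hq⟩ : (g : ℤ) ∣ 2 * γ 1 0 := Int.gcd_dvd_right _ _
    have hcop : IsCoprime p q := by
      have hgcd : Int.gcd (γ 0 0 - γ 1 1) (2 * γ 1 0) = Int.gcd (g * p) (g * q) := by
        rw [← hp, ← hq]
      rw [Int.gcd_mul_left] at hgcd
      have hgn : g.natAbs = Int.gcd (γ 0 0 - γ 1 1) (2 * γ 1 0) := by
        rw [hg]; simp
      have hgn0 : g.natAbs ≠ 0 := Int.natAbs_ne_zero.mpr hg0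
      rw [← hgn] at hgcd
      have : Int.gcd p q = 1 := by
        have h := hgcd
        nth_rewrite 1 [← mul_one g.natAbs] at h
        exact (Nat.eq_of_mul_eq_mul_left (Nat.pos_of_ne_zero hgn0) h).symm
      exact Int.isCoprime_iff_gcd_eq_one.mpr this
    obtain ⟨δ, hδ0, hδ1⟩ := hcop.exists_SL2_col 0
    refine ⟨δ, ?_⟩
    rw [key, hδ0, hδ1]
    have h2 : g ^ 2 * (γ 1 0 * p ^ 2 + (γ 1 1 - γ 0 0) * p * q - γ 0 1 * q ^ 2) = 0 := by
      have e1 : g * p = γ 0 0 - γ 1 1 := hp.symm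
      have e2 : g * q = 2 * γ 1 0 := hq.symm
      have : g ^ 2 * (γ 1 0 * p ^ 2 + (γ 1 1 - γ 0 0) * p * q - γ 0 1 * q ^ 2)
          = γ 1 0 * (g * p) ^ 2 + (γ 1 1 - γ 0 0) * (g * p) * (g * q) - γ 0 1 * (g * q) ^ 2 := by
        ring
      rw [this, e1, e2]
      linear_combination (-γ 1 0) * htr + 4 * γ 1 0 * hdet
    rcases mul_eq_zero.mp h2 with h | h
    · exact absurd (pow_eq_zero_iff (two_ne_zero) |>.mp h) hg0
    · exact h

/-- A parabolic element of `SL(2,ℤ)` acts on `ℍ` as a conjugate of a translation. -/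
theorem S21_p2_exists_conj_T (γ : SL(2, ℤ))
    (htr : (γ : Matrix (Fin 2) (Fin 2) ℤ).trace ^ 2 = 4) :
    ∃ (δ : SL(2, ℤ)) (n : ℤ), ∀ w : ℍ, γ • (δ • w) = δ • (T ^ n • w) := by
  obtain ⟨δ, hδ⟩ := S21_p2_exists_conj_upper γ htr
  obtain ⟨n, hn⟩ := exists_eq_T_zpow_of_c_eq_zero hδ
  refine ⟨δ, n, fun w => ?_⟩
  rw [← hn w, ← mul_smul, ← mul_smul]
  congr 1
  group

open ModularCurve ModularCurve.Period

/-- translation by `T ^ n` tends to `i∞` at `i∞`. -/
lemma S21_p2_tendsto_T_zpow_smul (n : ℤ) :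
    Tendsto (fun w : ℍ => (T ^ n) • w) atImInfty atImInfty := by
  have him : ∀ w : ℍ, ((T ^ n) • w).im = w.im := fun w => ModularGroup.im_T_zpow_smul w n
  rw [atImInfty, tendsto_comap_iff]
  have : (im ∘ fun w : ℍ => (T ^ n) • w) = im := by
    funext w
    exact him w
  rw [this]
  exact tendsto_comap

/-- **P2, analytic core.** The period of a parabolic element vanishes. -/
theorem S21_p2_period_eq_zero {N : ℕ} {f : CuspForm (Gamma0 N) 2} {F : ℍ → ℂ}
    (hF : HasEquivariantPrimitive N f F) (γ : Gamma0 N)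
    (htr : ((γ : SL(2, ℤ)) : Matrix (Fin 2) (Fin 2) ℤ).trace ^ 2 = 4) :
    hF.2.2.1.period γ = 0 := by
  obtain ⟨δ, n, hδ⟩ := S21_p2_exists_conj_T (γ : SL(2, ℤ)) htr
  obtain ⟨L, hL⟩ := hF.2.2.2 δ
  have h1 : Tendsto (fun w : ℍ => F (δ • ((T ^ n) • w))) atImInfty (𝓝 L) :=
    hL.comp (S21_p2_tendsto_T_zpow_smul n)
  have h2 : Tendsto (fun w : ℍ => F (δ • ((T ^ n) • w)) - F (δ • w)) atImInfty (𝓝 (L - L)) :=
    h1.sub hL
  have h3 : (fun w : ℍ => F (δ • ((T ^ n) • w)) - F (δ • w)) = fun _ => hF.2.2.1.period γ := by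
    funext w
    rw [← hδ w]
    exact hF.2.2.1.sub_eq_period γ (δ • w)
  rw [h3, sub_self] at h2
  exact tendsto_nhds_unique tendsto_const_nhds h2

/-- **P2.** The period homomorphism of a cusp form is parabolic. -/
theorem periodMap_mem_parabolicHoms (N : ℕ) [NeZero N] (f : CuspForm (Gamma0 N) 2) :
    periodMap N f ∈ parabolicHoms ℂ (Gamma0 N) ℂ := by
  by_cases h : ∃ F : ℍ → ℂ, HasEquivariantPrimitive N f F
  · obtain ⟨F, hF⟩ := h
    obtain ⟨F₀, h₀, hpm⟩ := periodMap_def N f hF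
    rw [hpm, mem_parabolicHoms_iff]
    intro γ hγ
    rw [IsEquivariantPrimitive.periodHom_apply]
    exact S21_p2_period_eq_zero h₀ γ hγ
  · have : periodMap N f = 0 := by
      unfold periodMap
      rw [dif_neg h]
    rw [this]
    exact Submodule.zero_mem _

/-- **P2, packaged.** The range of the Eichler–Shimura pair map consists of parabolic homs. -/
theorem range_periodHomPair_le (N : ℕ) [NeZero N] :
    LinearMap.range (periodHomPair N) ≤ parabolicHoms ℂ (Gamma0 N) ℂ := by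
  by_cases h : ExistsPeriodMapLinear N
  · obtain ⟨pml, hpml, hdef⟩ := periodHomPair_def N h
    rintro φ ⟨⟨f, g⟩, rfl⟩
    rw [hdef]
    simp only [LinearMap.coprod_apply, LinearMap.comp_apply, LinearMap.add_apply,
      LinearMap.sub_apply, LinearMap.id_apply]
    have hf : pml f ∈ parabolicHoms ℂ (Gamma0 N) ℂ := by
      rw [hpml]; exact periodMap_mem_parabolicHoms N f
    have hg : pml g ∈ parabolicHoms ℂ (Gamma0 N) ℂ := by
      rw [hpml]; exact periodMap_mem_parabolicHoms N g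
    exact Submodule.add_mem _
      (Submodule.add_mem _ hf (charInvolution_mem_parabolicHoms N ℂ ℂ hf))
      (Submodule.sub_mem _ hg (charInvolution_mem_parabolicHoms N ℂ ℂ hg))
  · have : periodHomPair N = 0 := by
      unfold periodHomPair
      rw [dif_neg h]
    rw [this]
    simp

end Fermat.Agent.S21
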