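import Fermat.Agent.S21.Inj
import Fermat.Agent.S21.Parabolic
import Fermat.Prelude.Def_ModularCurve_GenusNumerics

/-!
# S21: conditional assembly

`S21_of_inputs`: the Eichler–Shimura statement from the dimension formula for `S₂(Γ₀(N))`
(only the lower bound `genusFormula N ≤ dim S₂` is needed) and the group-side bound on the
dimension of the parabolic homomorphisms.
-/

set_option autoImplicit false

open CongruenceSubgroup
open ModularCurve ModularCurve.Period

namespace Fermat.Agent.S21

/-- From injectivity of `periodHomPair` and `range ≤ parabolicHoms`: if the parabolic homs are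
finite dimensional then so is `S₂(Γ₀(N))`, and `2 · dim S₂ ≤ dim Hom_par`. -/
theorem S21_two_mul_finrank_le (N : ℕ) [NeZero N]
    (hfd : FiniteDimensional ℂ (parabolicHoms ℂ (Gamma0 N) ℂ)) :
    FiniteDimensional ℂ (CuspForm (Gamma0 N) 2) ∧
      2 * Module.finrank ℂ (CuspForm (Gamma0 N) 2)
        ≤ Module.finrank ℂ (parabolicHoms ℂ (Gamma0 N) ℂ) := by
  have hinj := periodHomPair_injective N
  have hle := range_periodHomPair_le N
  -- the corestriction to the parabolic homs
  let ψ : (CuspForm (Gamma0 N) 2 × CuspForm (Gamma0 N) 2) →ₗ[ℂ] parabolicHoms ℂ (Gamma0 N) ℂ :=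
    (periodHomPair N).codRestrict _ (fun x => hle (LinearMap.mem_range_self _ x))
  have hψ : Function.Injective ψ := by
    intro x y hxy
    apply hinj
    exact congrArg Subtype.val hxy
  have : FiniteDimensional ℂ (CuspForm (Gamma0 N) 2 × CuspForm (Gamma0 N) 2) :=
    FiniteDimensional.of_injective ψ hψ
  have hS : FiniteDimensional ℂ (CuspForm (Gamma0 N) 2) :=
    FiniteDimensional.of_injective
      (LinearMap.inl ℂ (CuspForm (Gamma0 N) 2) (CuspForm (Gamma0 N) 2)) LinearMap.inl_injective
  refine ⟨hS, ?_⟩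
  have h1 := LinearMap.finrank_le_finrank_of_injective hψ
  rw [Module.finrank_prod] at h1
  omega

/-- **Upper bound for `dim S₂(Γ₀(N))`** from the group-side bound. -/
theorem S21_finrank_cuspForm_le (N : ℕ) [NeZero N]
    (hfd : FiniteDimensional ℂ (parabolicHoms ℂ (Gamma0 N) ℂ))
    (hG : 6 * Module.finrank ℂ (parabolicHoms ℂ (Gamma0 N) ℂ)
          + 3 * nuTwo N + 4 * nuThree N + 6 * cuspCount N
          ≤ dedekindPsi N + 12) :
    (Module.finrank ℂ (CuspForm (Gamma0 N) 2) : ℚ) ≤ genusFormula N := by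
  obtain ⟨_, h2⟩ := S21_two_mul_finrank_le N hfd
  have h2' : (2 * Module.finrank ℂ (CuspForm (Gamma0 N) 2) : ℚ)
      ≤ Module.finrank ℂ (parabolicHoms ℂ (Gamma0 N) ℂ) := by exact_mod_cast h2
  have hG' : (6 * Module.finrank ℂ (parabolicHoms ℂ (Gamma0 N) ℂ)
          + 3 * nuTwo N + 4 * nuThree N + 6 * cuspCount N : ℚ)
          ≤ dedekindPsi N + 12 := by exact_mod_cast hG
  unfold genusFormula
  linarith

/-- Conditional assembly with only the lower bound `genusFormula N ≤ dim S₂(Γ₀(N))`. -/
theorem S21_of_inputs_le (N : ℕ) [NeZero N]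
    (hS20 : genusFormula N ≤ (Module.finrank ℂ (CuspForm (Gamma0 N) 2) : ℚ))
    (hfd : FiniteDimensional ℂ (parabolicHoms ℂ (Gamma0 N) ℂ))
    (hG : 6 * Module.finrank ℂ (parabolicHoms ℂ (Gamma0 N) ℂ)
          + 3 * nuTwo N + 4 * nuThree N + 6 * cuspCount N
          ≤ dedekindPsi N + 12) :
    Function.Injective (periodHomPair N)
      ∧ LinearMap.range (periodHomPair N) = parabolicHoms ℂ (Gamma0 N) ℂ := by
  have hinj := periodHomPair_injective N
  refine ⟨hinj, ?_⟩
  have hle := range_periodHomPair_le N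
  obtain ⟨hS, -⟩ := S21_two_mul_finrank_le N hfd
  have := hS
  have := hfd
  refine Submodule.eq_of_le_of_finrank_le hle ?_
  rw [LinearMap.finrank_range_of_inj hinj, Module.finrank_prod]
  have hG' : (6 * Module.finrank ℂ (parabolicHoms ℂ (Gamma0 N) ℂ)
          + 3 * nuTwo N + 4 * nuThree N + 6 * cuspCount N : ℚ)
          ≤ dedekindPsi N + 12 := by exact_mod_cast hG
  unfold genusFormula at hS20
  have h3 : (Module.finrank ℂ (parabolicHoms ℂ (Gamma0 N) ℂ) : ℚ)
      ≤ (Module.finrank ℂ (CuspForm (Gamma0 N) 2) + Module.finrank ℂ (CuspForm (Gamma0 N) 2) : ℕ) := by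
    push_cast
    linarith
  exact_mod_cast h3

/-- **Conditional assembly of S21.** -/
theorem S21_of_inputs (N : ℕ) [NeZero N]
    (hS20 : (Module.finrank ℂ (CuspForm (CongruenceSubgroup.Gamma0 N) 2) : ℚ)
      = ModularCurve.genusFormula N)
    (hfd : FiniteDimensional ℂ
      (ModularCurve.Period.parabolicHoms ℂ (CongruenceSubgroup.Gamma0 N) ℂ))
    (hG : 6 * Module.finrank ℂ
            (ModularCurve.Period.parabolicHoms ℂ (CongruenceSubgroup.Gamma0 N) ℂ)
          + 3 * ModularCurve.nuTwo N + 4 * ModularCurve.nuThree N + 6 * ModularCurve.cuspCount N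
          ≤ ModularCurve.dedekindPsi N + 12) :
    Function.Injective (ModularCurve.periodHomPair N)
      ∧ LinearMap.range (ModularCurve.periodHomPair N)
          = ModularCurve.Period.parabolicHoms ℂ (CongruenceSubgroup.Gamma0 N) ℂ :=
  S21_of_inputs_le N hS20.ge hfd hG

end Fermat.Agent.S21
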