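import Mathlib

/-!
# Linear algebra on permutation modules (group side of S21)

For a finite `G`-set `X` and `M = X → ℂ` we study the operators `pull g : m ↦ m ∘ (g • ·)`.
-/

set_option autoImplicit false

namespace Fermat.Agent.S21

open Module

section Pull

variable {G X : Type*} [Group G] [MulAction G X]

/-- Pull back a function along the action of `g`: `(pull g m) x = m (g • x)`. -/
def pull (g : G) : (X → ℂ) →ₗ[ℂ] (X → ℂ) := LinearMap.funLeft ℂ ℂ (fun x => g • x)

@[simp] lemma pull_apply (g : G) (m : X → ℂ) (x : X) : pull g m x = m (g • x) := rfl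

lemma pull_one : pull (1 : G) = (LinearMap.id : (X → ℂ) →ₗ[ℂ] (X → ℂ)) :=
  LinearMap.ext fun m => funext fun x => by simp

lemma pull_mul (g h : G) : pull (X := X) (g * h) = (pull h).comp (pull g) :=
  LinearMap.ext fun m => funext fun x => by simp [mul_smul]

lemma trace_pull [Fintype X] [DecidableEq X] (g : G) :
    LinearMap.trace ℂ (X → ℂ) (pull g) = (Fintype.card {x : X // g • x = x} : ℂ) := by
  rw [LinearMap.trace_eq_matrix_trace ℂ (Pi.basisFun ℂ X), Matrix.trace]
  have : ∀ x : X, (LinearMap.toMatrix (Pi.basisFun ℂ X) (Pi.basisFun ℂ X) (pull g)).diag x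
      = if g • x = x then 1 else 0 := by
    intro x
    simp [Pi.single_apply]
  simp_rw [this]
  rw [Finset.sum_boole, Fintype.card_subtype]

end Pull

section Involution

variable {G X : Type*} [Group G] [MulAction G X]

/-- Anti-invariant functions for an element acting as an involution. -/
def antiInv (S : G) : Submodule ℂ (X → ℂ) := LinearMap.ker (LinearMap.id + pull S)

lemma mem_antiInv {S : G} {m : X → ℂ} : m ∈ antiInv (X := X) S ↔ ∀ x, m x + m (S • x) = 0 := by
  simp only [antiInv, LinearMap.mem_ker, LinearMap.add_apply, LinearMap.id_apply]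
  constructor
  · intro h x
    have := congrFun h x
    simpa using this
  · intro h
    funext x
    simpa using h x

variable [Fintype X] [DecidableEq X]

/-- `2 dim(anti-invariants) + #fixed points = #X` for an element acting as an involution. -/
theorem two_mul_finrank_antiInv (S : G) (hS : ∀ x : X, S • S • x = x) :
    2 * finrank ℂ (antiInv (X := X) S) + Fintype.card {x : X // S • x = x} = Fintype.card X := by
  set e : (X → ℂ) →ₗ[ℂ] (X → ℂ) := (2⁻¹ : ℂ) • (LinearMap.id - pull S) with he
  have hproj : LinearMap.IsProj (antiInv (X := X) S) e := by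
    constructor
    · intro m
      rw [mem_antiInv]
      intro x
      simp only [he, LinearMap.smul_apply, LinearMap.sub_apply, LinearMap.id_apply, pull_apply,
        Pi.smul_apply, Pi.sub_apply, smul_eq_mul, hS]
      ring
    · intro m hm
      rw [mem_antiInv] at hm
      funext x
      simp only [he, LinearMap.smul_apply, LinearMap.sub_apply, LinearMap.id_apply, pull_apply,
        Pi.smul_apply, Pi.sub_apply, smul_eq_mul]
      have := hm x
      linear_combination (-(2⁻¹ : ℂ)) * this
  have htr := hproj.trace
  rw [he, map_smul, map_sub, trace_pull, LinearMap.trace_id, finrank_fintype_fun_eq_card] at htr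
  have h2 : (2 : ℂ) * (finrank ℂ (antiInv (X := X) S) : ℂ)
      + (Fintype.card {x : X // S • x = x} : ℂ) = (Fintype.card X : ℂ) := by
    rw [← htr]
    simp only [smul_eq_mul]
    ring
  exact_mod_cast h2

end Involution

section OrderThree

variable {G X : Type*} [Group G] [MulAction G X]

/-- Functions whose sum over `x, U x, U² x` vanishes. -/
def triZero (U : G) : Submodule ℂ (X → ℂ) :=
  LinearMap.ker (LinearMap.id + pull U + (pull U).comp (pull U))

lemma mem_triZero {U : G} {m : X → ℂ} :
    m ∈ triZero (X := X) U ↔ ∀ x, m x + m (U • x) + m (U • U • x) = 0 := by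
  simp only [triZero, LinearMap.mem_ker, LinearMap.add_apply, LinearMap.id_apply,
    LinearMap.comp_apply]
  constructor
  · intro h x
    have := congrFun h x
    simpa using this
  · intro h
    funext x
    simpa using h x

variable [Fintype X] [DecidableEq X]

/-- `3 dim(triZero) + 2 #fixed points = 2 #X` for an element acting with order dividing 3. -/
theorem three_mul_finrank_triZero (U : G) (hU : ∀ x : X, U • U • U • x = x) :
    3 * finrank ℂ (triZero (X := X) U) + 2 * Fintype.card {x : X // U • x = x}
      = 2 * Fintype.card X := by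
  set e : (X → ℂ) →ₗ[ℂ] (X → ℂ) :=
    LinearMap.id - (3⁻¹ : ℂ) • (LinearMap.id + pull U + pull (U * U)) with he
  have hproj : LinearMap.IsProj (triZero (X := X) U) e := by
    constructor
    · intro m
      rw [mem_triZero]
      intro x
      simp only [he, LinearMap.smul_apply, LinearMap.sub_apply, LinearMap.add_apply,
        LinearMap.id_apply, pull_apply, Pi.smul_apply, Pi.sub_apply, Pi.add_apply, smul_eq_mul,
        mul_smul, hU]
      ring
    · intro m hm
      rw [mem_triZero] at hm
      funext x
      simp only [he, LinearMap.smul_apply, LinearMap.sub_apply, LinearMap.add_apply,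
        LinearMap.id_apply, pull_apply, Pi.smul_apply, Pi.sub_apply, Pi.add_apply, smul_eq_mul,
        mul_smul]
      have := hm x
      linear_combination (-(3⁻¹ : ℂ)) * this
  have hfix : Fintype.card {x : X // (U * U) • x = x} = Fintype.card {x : X // U • x = x} := by
    refine Fintype.card_congr (Equiv.subtypeEquivRight fun x => ?_)
    rw [mul_smul]
    constructor
    · intro h
      have h1 : U • U • U • x = U • x := congrArg (U • ·) h
      rw [hU] at h1
      exact h1.symm
    · intro h
      rw [h, h]
  have htr := hproj.trace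
  rw [he, map_sub, map_smul, map_add, map_add, trace_pull, trace_pull, LinearMap.trace_id,
    finrank_fintype_fun_eq_card, hfix] at htr
  have h2 : (3 : ℂ) * (finrank ℂ (triZero (X := X) U) : ℂ)
      + 2 * (Fintype.card {x : X // U • x = x} : ℂ) = 2 * (Fintype.card X : ℂ) := by
    rw [← htr]
    simp only [smul_eq_mul]
    ring
  exact_mod_cast h2

end OrderThree

section Orbits

variable {G X : Type*} [Group G] [MulAction G X]

/-- The "coboundaries" `m ∘ T − m`. -/
def cobT (T : G) : Submodule ℂ (X → ℂ) := LinearMap.range (pull T - LinearMap.id)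

lemma invariant_of_mem_zpowers {T : G} {m : X → ℂ} (hm : ∀ x, m (T • x) = m x)
    {h : G} (hh : h ∈ Subgroup.zpowers T) (y : X) : m (h • y) = m y := by
  obtain ⟨k, rfl⟩ := Subgroup.mem_zpowers_iff.mp hh
  clear hh
  induction k using Int.induction_on generalizing y with
  | zero => simp
  | succ n ih =>
    rw [zpow_add_one, mul_smul, ih, hm]
  | pred n ih =>
    rw [zpow_sub_one, mul_smul, ih]
    have := hm (T⁻¹ • y)
    rw [smul_inv_smul] at this
    exact this.symm

variable [Fintype X]

/-- The kernel of `pull T − 1` has dimension the number of `T`-orbits. -/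
theorem finrank_ker_pull_sub_id (T : G) :
    finrank ℂ (LinearMap.ker (pull (X := X) T - LinearMap.id))
      = Nat.card (MulAction.orbitRel.Quotient (Subgroup.zpowers T) X) := by
  classical
  set Ω := MulAction.orbitRel.Quotient (Subgroup.zpowers T) X with hΩ
  letI : Fintype Ω := Fintype.ofFinite Ω
  let mk : X → Ω := Quotient.mk''
  have hmk : Function.Surjective mk := Quotient.mk''_surjective
  set Φ : (Ω → ℂ) →ₗ[ℂ] (X → ℂ) := LinearMap.funLeft ℂ ℂ mk with hΦ
  have hinj : Function.Injective Φ := LinearMap.funLeft_injective_of_surjective ℂ ℂ mk hmk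
  have hrange : LinearMap.range Φ = LinearMap.ker (pull (X := X) T - LinearMap.id) := by
    apply le_antisymm
    · rintro _ ⟨f, rfl⟩
      rw [LinearMap.mem_ker]
      funext x
      simp only [LinearMap.sub_apply, LinearMap.id_apply, pull_apply, Pi.sub_apply, Pi.zero_apply,
        hΦ, LinearMap.funLeft_apply]
      have : mk (T • x) = mk x := by
        apply Quotient.sound'
        exact ⟨⟨T, Subgroup.mem_zpowers T⟩, rfl⟩
      rw [this, sub_self]
    · intro m hm
      rw [LinearMap.mem_ker] at hm
      have hm' : ∀ x, m (T • x) = m x := by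
        intro x
        have := congrFun hm x
        simpa [sub_eq_zero] using this
      refine ⟨Quotient.lift m ?_, ?_⟩
      · rintro a b ⟨⟨h, hh⟩, rfl⟩
        exact invariant_of_mem_zpowers hm' hh b
      · funext x
        rfl
  rw [← hrange, LinearMap.finrank_range_of_inj hinj, finrank_fintype_fun_eq_card,
    Nat.card_eq_fintype_card]

theorem finrank_cobT_add_card_orbits (T : G) :
    finrank ℂ (cobT (X := X) T)
      + Nat.card (MulAction.orbitRel.Quotient (Subgroup.zpowers T) X) = Fintype.card X := by
  have h := LinearMap.finrank_range_add_finrank_ker (pull (X := X) T - LinearMap.id)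
  rw [finrank_ker_pull_sub_id, finrank_fintype_fun_eq_card] at h
  exact h

end Orbits

section Main

variable {G X : Type*} [Group G] [MulAction G X]

/-- `τ(a,b) = b − a ∘ T`. -/
def tauMap (T : G) : (X → ℂ) × (X → ℂ) →ₗ[ℂ] (X → ℂ) :=
  LinearMap.snd ℂ _ _ - (pull T).comp (LinearMap.fst ℂ _ _)

@[simp] lemma tauMap_apply (T : G) (p : (X → ℂ) × (X → ℂ)) (x : X) :
    tauMap T p x = p.2 x - p.1 (T • x) := rfl

/-- The space of "parabolic cocycle data" `(a, b)`. -/
def cocycleSpace (S U T : G) : Submodule ℂ ((X → ℂ) × (X → ℂ)) :=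
  ((antiInv S).prod (triZero U)) ⊓ (cobT T).comap (tauMap T)

/-- The coboundary map `m ↦ (m ∘ S − m, m ∘ U − m)`. -/
def cobMap (S U : G) : (X → ℂ) →ₗ[ℂ] (X → ℂ) × (X → ℂ) :=
  (pull S - LinearMap.id).prod (pull U - LinearMap.id)

@[simp] lemma cobMap_apply (S U : G) (m : X → ℂ) :
    cobMap S U m = (pull S m - m, pull U m - m) := rfl

/-- A property of group elements which holds for `S`, `U` and is stable under products and
inverses holds for all of `G = ⟨S, U⟩`. -/
lemma forall_of_closure_eq_top {S U : G} (hgen : Subgroup.closure ({S, U} : Set G) = ⊤)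
    (p : G → Prop) (h1 : p 1) (hS : p S) (hU : p U) (hmul : ∀ g h, p g → p h → p (g * h))
    (hinv : ∀ g, p g → p g⁻¹) (g : G) : p g := by
  have hg : g ∈ Subgroup.closure ({S, U} : Set G) := hgen ▸ Subgroup.mem_top g
  induction hg using Subgroup.closure_induction with
  | mem x hx =>
    rcases hx with rfl | hx
    · exact hS
    · rw [Set.mem_singleton_iff] at hx
      exact hx ▸ hU
  | one => exact h1
  | mul x y _ _ hx hy => exact hmul x y hx hy
  | inv x _ hx => exact hinv x hx

lemma const_of_invariant [MulAction.IsPretransitive G X] {S U : G}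
    (hgen : Subgroup.closure ({S, U} : Set G) = ⊤) {m : X → ℂ}
    (hS : ∀ x, m (S • x) = m x) (hU : ∀ x, m (U • x) = m x) (x y : X) : m x = m y := by
  have key : ∀ g : G, ∀ z, m (g • z) = m z := by
    intro g
    refine forall_of_closure_eq_top hgen (fun g => ∀ z, m (g • z) = m z) ?_ hS hU ?_ ?_ g
    · intro z; rw [one_smul]
    · intro g h hg hh z; rw [mul_smul, hg, hh]
    · intro g hg z
      have := hg (g⁻¹ • z)
      rw [smul_inv_smul] at this
      exact this.symm
  obtain ⟨g, rfl⟩ := MulAction.exists_smul_eq G y x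
  exact key g y

variable [Fintype X]

/-- The coboundaries have dimension `#X − 1`. -/
theorem finrank_range_cobMap_add_one [MulAction.IsPretransitive G X] [Nonempty X] {S U : G}
    (hgen : Subgroup.closure ({S, U} : Set G) = ⊤) :
    finrank ℂ (LinearMap.range (cobMap (X := X) S U)) + 1 = Fintype.card X := by
  have h := LinearMap.finrank_range_add_finrank_ker (cobMap (X := X) S U)
  rw [finrank_fintype_fun_eq_card] at h
  suffices hk : finrank ℂ (LinearMap.ker (cobMap (X := X) S U)) = 1 by omega
  set κ : ℂ →ₗ[ℂ] (X → ℂ) := LinearMap.pi (fun _ => LinearMap.id) with hκ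
  have hκinj : Function.Injective κ := by
    intro c d hcd
    obtain ⟨x₀⟩ := ‹Nonempty X›
    exact congrFun hcd x₀
  have hrange : LinearMap.range κ = LinearMap.ker (cobMap (X := X) S U) := by
    apply le_antisymm
    · rintro _ ⟨c, rfl⟩
      rw [LinearMap.mem_ker, cobMap_apply]
      ext x <;> simp [hκ]
    · intro m hm
      rw [LinearMap.mem_ker, cobMap_apply, Prod.mk_eq_zero] at hm
      obtain ⟨x₀⟩ := ‹Nonempty X›
      refine ⟨m x₀, ?_⟩
      funext x
      have hS : ∀ x, m (S • x) = m x := fun x => by
        have := congrFun hm.1 x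
        simpa [sub_eq_zero] using this
      have hU : ∀ x, m (U • x) = m x := fun x => by
        have := congrFun hm.2 x
        simpa [sub_eq_zero] using this
      simpa [hκ] using const_of_invariant hgen hS hU x₀ x
  rw [← hrange, LinearMap.finrank_range_of_inj hκinj, finrank_self]

end Main

section MainBound

variable {G X : Type*} [Group G] [MulAction G X]

/-- The auxiliary map `(a, b, w) ↦ b − a ∘ T − w` on `A × B × W`. -/
def thetaMap (S U T : G) :
    (antiInv (X := X) S × triZero (X := X) U × cobT (X := X) T) →ₗ[ℂ] (X → ℂ) :=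
  (triZero (X := X) U).subtype.comp
      ((LinearMap.fst ℂ _ _).comp (LinearMap.snd ℂ (antiInv (X := X) S) _))
    - (pull T).comp ((antiInv (X := X) S).subtype.comp (LinearMap.fst ℂ _ _))
    - (cobT (X := X) T).subtype.comp
      ((LinearMap.snd ℂ _ _).comp (LinearMap.snd ℂ (antiInv (X := X) S) _))

lemma thetaMap_apply (S U T : G)
    (p : antiInv (X := X) S × triZero (X := X) U × cobT (X := X) T) :
    thetaMap S U T p = (p.2.1 : X → ℂ) - pull T (p.1 : X → ℂ) - (p.2.2 : X → ℂ) := rfl

lemma pull_sub_mem_range_thetaMap {S U T : G}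
    (hgen : Subgroup.closure ({S, U} : Set G) = ⊤)
    (hS2 : ∀ x : X, S • S • x = x) (hU3 : ∀ x : X, U • U • U • x = x) (g : G) (m : X → ℂ) :
    pull g m - m ∈ LinearMap.range (thetaMap (X := X) S U T) := by
  have hW : ∀ w ∈ cobT (X := X) T, w ∈ LinearMap.range (thetaMap (X := X) S U T) := by
    intro w hw
    refine ⟨(0, 0, ⟨-w, neg_mem hw⟩), ?_⟩
    rw [thetaMap_apply]
    simp
  have hB : ∀ b ∈ triZero (X := X) U, b ∈ LinearMap.range (thetaMap (X := X) S U T) := by
    intro b hb
    refine ⟨(0, ⟨b, hb⟩, 0), ?_⟩
    rw [thetaMap_apply]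
    simp
  have hA : ∀ a ∈ antiInv (X := X) S, a ∈ LinearMap.range (thetaMap (X := X) S U T) := by
    intro a ha
    have hw : pull T a - a ∈ cobT (X := X) T := ⟨a, rfl⟩
    refine ⟨(⟨-a, neg_mem ha⟩, 0, ⟨pull T a - a, hw⟩), ?_⟩
    rw [thetaMap_apply]
    simp
  refine forall_of_closure_eq_top hgen
    (fun g => ∀ m : X → ℂ, pull g m - m ∈ LinearMap.range (thetaMap (X := X) S U T))
    ?_ ?_ ?_ ?_ ?_ g m
  · intro m
    rw [pull_one]
    simp
  · intro m
    apply hA
    rw [mem_antiInv]
    intro x
    simp only [Pi.sub_apply, pull_apply, hS2]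
    ring
  · intro m
    apply hB
    rw [mem_triZero]
    intro x
    simp only [Pi.sub_apply, pull_apply, hU3]
    ring
  · intro g h hg hh m
    have h1 := hh (pull g m)
    have h2 := hg m
    have : pull (g * h) m - m = (pull h (pull g m) - pull g m) + (pull g m - m) := by
      rw [pull_mul]
      simp
    rw [this]
    exact add_mem h1 h2
  · intro g hg m
    have h1 := hg (pull g⁻¹ m)
    have : pull g (pull g⁻¹ m) = m := by
      funext x
      simp
    rw [this] at h1
    have h2 : pull g⁻¹ m - m = -(m - pull g⁻¹ m) := by ring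
    rw [h2]
    exact neg_mem h1

variable [Fintype X] [DecidableEq X]

lemma finrank_range_thetaMap_add_one_ge [MulAction.IsPretransitive G X] [Nonempty X]
    {S U T : G} (hgen : Subgroup.closure ({S, U} : Set G) = ⊤)
    (hS2 : ∀ x : X, S • S • x = x) (hU3 : ∀ x : X, U • U • U • x = x) :
    Fintype.card X ≤ finrank ℂ (LinearMap.range (thetaMap (X := X) S U T)) + 1 := by
  obtain ⟨x₀⟩ := ‹Nonempty X›
  set R := LinearMap.range (thetaMap (X := X) S U T) with hR
  set d : X → ℂ := Pi.single x₀ 1 with hd
  have hsingle : ∀ x : X, (Pi.single x 1 : X → ℂ) - d ∈ R := by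
    intro x
    obtain ⟨h, hh⟩ := MulAction.exists_smul_eq G x₀ x
    have := pull_sub_mem_range_thetaMap (T := T) hgen hS2 hU3 h⁻¹ d
    have h2 : pull h⁻¹ d = (Pi.single x 1 : X → ℂ) := by
      funext y
      simp only [pull_apply, hd, Pi.single_apply]
      have : h⁻¹ • y = x₀ ↔ y = x := by
        rw [inv_smul_eq_iff, hh]
      simp only [this]
    rwa [h2] at this
  have htop : (⊤ : Submodule ℂ (X → ℂ)) ≤ R ⊔ Submodule.span ℂ {d} := by
    intro m _
    have hm : m = (∑ x, m x • ((Pi.single x 1 : X → ℂ) - d)) + (∑ x, m x) • d := by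
      funext y
      simp only [Pi.add_apply, Finset.sum_apply, Pi.smul_apply, Pi.sub_apply, smul_eq_mul,
        Pi.single_apply, mul_sub, Finset.sum_sub_distrib, Finset.sum_mul]
      simp
    rw [hm]
    refine Submodule.add_mem_sup ?_ ?_
    · exact Submodule.sum_mem _ fun x _ => Submodule.smul_mem _ _ (hsingle x)
    · exact Submodule.smul_mem _ _ (Submodule.subset_span rfl)
  have h1 : finrank ℂ (X → ℂ) ≤ finrank ℂ ↥(R ⊔ Submodule.span ℂ {d}) := by
    rw [← finrank_top ℂ (X → ℂ)]
    exact Submodule.finrank_mono htop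
  have h2 := Submodule.finrank_add_le_finrank_add_finrank R (Submodule.span ℂ {d})
  have hd0 : d ≠ 0 := by
    intro h0
    have := congrFun h0 x₀
    simp [hd] at this
  have h3 : finrank ℂ ↥(Submodule.span ℂ {d}) = 1 := finrank_span_singleton hd0
  rw [finrank_fintype_fun_eq_card] at h1
  omega

/-- **Main dimension bound** for the cocycle space. -/
theorem finrank_cocycleSpace_add_card_le [MulAction.IsPretransitive G X] [Nonempty X]
    {S U T : G} (hgen : Subgroup.closure ({S, U} : Set G) = ⊤)
    (hS2 : ∀ x : X, S • S • x = x) (hU3 : ∀ x : X, U • U • U • x = x) :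
    finrank ℂ (cocycleSpace (X := X) S U T) + Fintype.card X ≤
      finrank ℂ (antiInv (X := X) S) + finrank ℂ (triZero (X := X) U)
        + finrank ℂ (cobT (X := X) T) + 1 := by
  have hrn := LinearMap.finrank_range_add_finrank_ker (thetaMap (X := X) S U T)
  rw [Module.finrank_prod, Module.finrank_prod] at hrn
  have hge := finrank_range_thetaMap_add_one_ge (T := T) hgen hS2 hU3
  -- injection of the cocycle space into the kernel of `thetaMap`
  let ι : cocycleSpace (X := X) S U T →ₗ[ℂ] LinearMap.ker (thetaMap (X := X) S U T) :=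
    { toFun := fun p =>
        ⟨(⟨p.1.1, p.2.1.1⟩, ⟨p.1.2, p.2.1.2⟩, ⟨tauMap T p.1, p.2.2⟩), by
          rw [LinearMap.mem_ker, thetaMap_apply]
          funext x
          simp [tauMap]⟩
      map_add' := fun p q => by
        apply Subtype.ext
        simp only [Submodule.coe_add, Prod.fst_add, Prod.snd_add, map_add, Prod.mk_add_mk]
        rfl
      map_smul' := fun c p => by
        apply Subtype.ext
        simp only [Submodule.coe_smul, Prod.smul_fst, Prod.smul_snd, map_smul, RingHom.id_apply,
          Prod.smul_mk]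
        rfl }
  have hι : Function.Injective ι := by
    intro p q hpq
    have h := Subtype.ext_iff.mp hpq
    simp only [ι, LinearMap.coe_mk, AddHom.coe_mk, Prod.mk.injEq, Subtype.mk.injEq] at h
    exact Subtype.ext (Prod.ext h.1 h.2.1)
  have hle := LinearMap.finrank_le_finrank_of_injective hι
  omega

end MainBound

end Fermat.Agent.S21
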