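import Mathlib
import Fermat.Agent.S21.PermLinAlg

/-!
# The cocycle attached to a homomorphism `Γ → ℂ` (group side of S21)

`X = G ⧸ Γ`, `r = Quotient.out`.  For `φ : Γ → ℂ` we put `c_φ(g)(x) = φ(r(g x)⁻¹ g r(x))`.
-/

set_option autoImplicit false

namespace Fermat.Agent.S21

open Module

section Cocycle

variable {G : Type*} [Group G] (Γ : Subgroup G)

lemma gam_mem (g : G) (x : G ⧸ Γ) :
    (Quotient.out (g • x))⁻¹ * g * Quotient.out x ∈ Γ := by
  rw [mul_assoc, ← QuotientGroup.eq]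
  rw [QuotientGroup.out_eq']
  conv_lhs => rw [← QuotientGroup.out_eq' x]
  rfl

/-- The `Γ`-valued cocycle of the section `Quotient.out`. -/
noncomputable def gam (g : G) (x : G ⧸ Γ) : Γ := ⟨(Quotient.out (g • x))⁻¹ * g * Quotient.out x, gam_mem Γ g x⟩

lemma gam_mul (g h : G) (x : G ⧸ Γ) : gam Γ (g * h) x = gam Γ g (h • x) * gam Γ h x := by
  apply Subtype.ext
  simp only [gam, Subgroup.coe_mul, mul_smul]
  group

/-- If `g` fixes `x` then `gam g x` is a conjugate of `g`. -/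
lemma coe_gam_of_smul_eq {g : G} {x : G ⧸ Γ} (h : g • x = x) :
    (gam Γ g x : G) = (Quotient.out x)⁻¹ * g * Quotient.out x := by
  simp only [gam, h]

lemma smul_one_coset (γ : Γ) : (γ : G) • (((1 : G) : G ⧸ Γ)) = ((1 : G) : G ⧸ Γ) := by
  rw [MulAction.Quotient.smul_coe, smul_eq_mul, mul_one, QuotientGroup.eq]
  exact Γ.mul_mem (Γ.inv_mem γ.2) Γ.one_mem

variable {Γ}

/-- The cocycle of a homomorphism `φ`. -/
noncomputable def coc (φ : Additive Γ →+ ℂ) (g : G) : (G ⧸ Γ) → ℂ := fun x => φ (Additive.ofMul (gam Γ g x))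

lemma coc_mul (φ : Additive Γ →+ ℂ) (g h : G) (x : G ⧸ Γ) :
    coc φ (g * h) x = coc φ g (h • x) + coc φ h x := by
  simp only [coc, gam_mul, ofMul_mul, map_add]

lemma coc_one (φ : Additive Γ →+ ℂ) (x : G ⧸ Γ) : coc φ 1 x = 0 := by
  have := coc_mul φ 1 1 x
  rw [mul_one, one_smul] at this
  simpa using this

lemma coc_inv (φ : Additive Γ →+ ℂ) (g : G) (x : G ⧸ Γ) :
    coc φ g⁻¹ x = - coc φ g (g⁻¹ • x) := by
  have := coc_mul φ g g⁻¹ x
  rw [mul_inv_cancel, coc_one] at this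
  linear_combination -this

/-- The value of `φ` at `γ ∈ Γ` is read off from the cocycle at the base point. -/
lemma coc_base (φ : Additive Γ →+ ℂ) (γ : Γ) :
    coc φ (γ : G) ((1 : G) : G ⧸ Γ) = φ (Additive.ofMul γ) := by
  set x₀ : G ⧸ Γ := ((1 : G) : G ⧸ Γ) with hx₀
  have hfix : (γ : G) • x₀ = x₀ := smul_one_coset Γ γ
  have hr : Quotient.out x₀ ∈ Γ := by
    have h1 : ((Quotient.out x₀ : G) : G ⧸ Γ) = ((1 : G) : G ⧸ Γ) := QuotientGroup.out_eq' x₀
    rw [QuotientGroup.eq] at h1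
    have := Γ.inv_mem h1
    simpa using this
  have hgam : gam Γ (γ : G) x₀ = (⟨Quotient.out x₀, hr⟩ : Γ)⁻¹ * γ * ⟨Quotient.out x₀, hr⟩ := by
    apply Subtype.ext
    rw [coe_gam_of_smul_eq Γ hfix]
    rfl
  simp only [coc, hgam, ofMul_mul, ofMul_inv, map_add, map_neg]
  ring

/-- The linear map `φ ↦ (c_φ(S), c_φ(U))`. -/
noncomputable def xiMap (S U : G) : (Additive Γ →+ ℂ) →ₗ[ℂ] ((G ⧸ Γ) → ℂ) × ((G ⧸ Γ) → ℂ) where
  toFun φ := (coc φ S, coc φ U)
  map_add' φ ψ := rfl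
  map_smul' c φ := rfl

@[simp] lemma xiMap_apply (S U : G) (φ : Additive Γ →+ ℂ) :
    xiMap S U φ = (coc φ S, coc φ U) := rfl

/-- If the cocycle data of `φ` is a coboundary then `φ = 0`. -/
theorem eq_zero_of_xiMap_eq_cobMap {S U : G} (hgen : Subgroup.closure ({S, U} : Set G) = ⊤)
    (φ : Additive Γ →+ ℂ) (m : (G ⧸ Γ) → ℂ) (h : xiMap S U φ = cobMap S U m) : φ = 0 := by
  rw [xiMap_apply, cobMap_apply, Prod.mk.injEq] at h
  have key : ∀ g : G, ∀ x, coc φ g x = m (g • x) - m x := by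
    intro g
    refine forall_of_closure_eq_top hgen (fun g => ∀ x, coc φ g x = m (g • x) - m x)
      ?_ ?_ ?_ ?_ ?_ g
    · intro x; rw [coc_one, one_smul, sub_self]
    · intro x; rw [h.1]; rfl
    · intro x; rw [h.2]; rfl
    · intro g h hg hh x
      rw [coc_mul, hg, hh, mul_smul]
      ring
    · intro g hg x
      rw [coc_inv, hg, smul_inv_smul]
      ring
  refine AddMonoidHom.ext fun γ => ?_
  have h1 := coc_base φ (Additive.toMul γ)
  rw [key] at h1
  have hfix : ((Additive.toMul γ : Γ) : G) • (((1 : G) : G ⧸ Γ)) = ((1 : G) : G ⧸ Γ) :=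
    smul_one_coset Γ _
  rw [hfix, sub_self] at h1
  simpa using h1.symm

theorem xiMap_injective {S U : G} (hgen : Subgroup.closure ({S, U} : Set G) = ⊤) :
    Function.Injective (xiMap (Γ := Γ) S U) := by
  rw [← LinearMap.ker_eq_bot, LinearMap.ker_eq_bot']
  intro φ hφ
  refine eq_zero_of_xiMap_eq_cobMap hgen φ 0 ?_
  rw [hφ, map_zero]

end Cocycle

end Fermat.Agent.S21
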