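import Mathlib
import Fermat.Agent.S21.Cocycle

/-!
# Parabolic homomorphisms and the cocycle space (group side of S21)

For a subgroup `Γ ≤ G = ⟨S, U⟩` of finite index, `U = S T`, and a conjugation invariant
predicate `P` on `G` containing `S²`, `U³` and the powers of `T`, the space of homomorphisms
`Γ → ℂ` vanishing on `Γ ∩ P` has dimension bounded by the "genus formula".
-/

set_option autoImplicit false

namespace Fermat.Agent.S21

open Module

section ParCocycle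

variable {G : Type*} [Group G]

/-- Homomorphisms `Γ → ℂ` vanishing on the elements of `Γ` satisfying `P`. -/
def parHoms (Γ : Subgroup G) (P : G → Prop) : Submodule ℂ (Additive Γ →+ ℂ) where
  carrier := {φ | ∀ γ : Γ, P (γ : G) → φ (Additive.ofMul γ) = 0}
  zero_mem' := fun _ _ => rfl
  add_mem' := by
    intro φ ψ hφ hψ γ hγ
    show φ (Additive.ofMul γ) + ψ (Additive.ofMul γ) = 0
    rw [hφ γ hγ, hψ γ hγ, add_zero]
  smul_mem' := by
    intro c φ hφ γ hγ
    show c • φ (Additive.ofMul γ) = 0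
    rw [hφ γ hγ, smul_zero]

lemma mem_parHoms {Γ : Subgroup G} {P : G → Prop} {φ : Additive Γ →+ ℂ} :
    φ ∈ parHoms Γ P ↔ ∀ γ : Γ, P (γ : G) → φ (Additive.ofMul γ) = 0 := Iff.rfl

variable {Γ : Subgroup G} {P : G → Prop}

lemma coc_eq_zero_of_smul_eq (hP : ∀ g h : G, P h → P (g⁻¹ * h * g))
    {φ : Additive Γ →+ ℂ} (hφ : φ ∈ parHoms Γ P) {g : G} {x : G ⧸ Γ} (hx : g • x = x)
    (hg : P g) : coc φ g x = 0 := by
  apply hφ
  rw [coe_gam_of_smul_eq Γ hx]
  exact hP _ _ hg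

lemma coc_mem_antiInv (hP : ∀ g h : G, P h → P (g⁻¹ * h * g))
    {φ : Additive Γ →+ ℂ} (hφ : φ ∈ parHoms Γ P) {S : G}
    (hS2 : ∀ x : G ⧸ Γ, S • S • x = x) (hPS : P (S * S)) :
    coc φ S ∈ antiInv (X := G ⧸ Γ) S := by
  rw [mem_antiInv]
  intro x
  have h := coc_mul φ S S x
  have hx : (S * S) • x = x := by rw [mul_smul]; exact hS2 x
  rw [coc_eq_zero_of_smul_eq hP hφ hx hPS] at h
  linear_combination -h

lemma coc_mem_triZero (hP : ∀ g h : G, P h → P (g⁻¹ * h * g))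
    {φ : Additive Γ →+ ℂ} (hφ : φ ∈ parHoms Γ P) {U : G}
    (hU3 : ∀ x : G ⧸ Γ, U • U • U • x = x) (hPU : P (U * U * U)) :
    coc φ U ∈ triZero (X := G ⧸ Γ) U := by
  rw [mem_triZero]
  intro x
  have h := coc_mul φ (U * U) U x
  have h' := coc_mul φ U U (U • x)
  have hx : (U * U * U) • x = x := by rw [mul_smul, mul_smul]; exact hU3 x
  rw [coc_eq_zero_of_smul_eq hP hφ hx hPU] at h
  linear_combination -h - h'

lemma coc_mem_cobT (hP : ∀ g h : G, P h → P (g⁻¹ * h * g))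
    {φ : Additive Γ →+ ℂ} (hφ : φ ∈ parHoms Γ P) {T : G} (hT : ∀ k : ℤ, P (T ^ k)) :
    coc φ T ∈ cobT (X := G ⧸ Γ) T := by
  classical
  let Ω := MulAction.orbitRel.Quotient (Subgroup.zpowers T) (G ⧸ Γ)
  let b : G ⧸ Γ → G ⧸ Γ := fun x => Quotient.out (Quotient.mk'' x : Ω)
  have hb : ∀ x, ∃ k : ℤ, T ^ k • b x = x := by
    intro x
    have h1 : (Quotient.mk'' (b x) : Ω) = Quotient.mk'' x := Quotient.out_eq' _
    have h2 := Quotient.exact' h1
    obtain ⟨⟨g, hg⟩, hgx⟩ := h2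
    obtain ⟨k, rfl⟩ := Subgroup.mem_zpowers_iff.mp hg
    refine ⟨-k, ?_⟩
    have hgx' : T ^ k • x = b x := hgx
    rw [← hgx', ← mul_smul, ← zpow_add, neg_add_cancel, zpow_zero, one_smul]
  choose k hk using hb
  have hbT : ∀ x, b (T • x) = b x := by
    intro x
    have : (Quotient.mk'' (T • x) : Ω) = Quotient.mk'' x := by
      apply Quotient.sound'
      exact ⟨⟨T, Subgroup.mem_zpowers T⟩, rfl⟩
    show Quotient.out (Quotient.mk'' (T • x) : Ω) = Quotient.out (Quotient.mk'' x : Ω)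
    rw [this]
  refine ⟨fun x => coc φ (T ^ k x) (b x), ?_⟩
  funext x
  simp only [LinearMap.sub_apply, LinearMap.id_apply, pull_apply, Pi.sub_apply]
  rw [hbT]
  set m : ℤ := k (T • x) - k x - 1 with hm
  have h1 : T ^ k (T • x) • b x = T • x := by rw [← hbT x]; exact hk (T • x)
  have hprod : T ^ k (T • x) = T ^ m * (T * T ^ k x) := by
    rw [← zpow_one_add, ← zpow_add]
    congr 1
    rw [hm]; ring
  have h2 : (T * T ^ k x) • b x = T • x := by rw [mul_smul, hk]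
  have hfix : T ^ m • (T • x) = T • x := by
    calc T ^ m • (T • x) = T ^ m • ((T * T ^ k x) • b x) := by rw [h2]
      _ = (T ^ m * (T * T ^ k x)) • b x := (mul_smul _ _ _).symm
      _ = T ^ k (T • x) • b x := by rw [← hprod]
      _ = T • x := h1
  rw [hprod, coc_mul, coc_mul, h2, hk, coc_eq_zero_of_smul_eq hP hφ hfix (hT m)]
  ring

lemma range_cobMap_le_cocycleSpace {X : Type*} [MulAction G X] {S U T : G} (hU : U = S * T)
    (hS2 : ∀ x : X, S • S • x = x) (hU3 : ∀ x : X, U • U • U • x = x) :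
    LinearMap.range (cobMap (X := X) S U) ≤ cocycleSpace S U T := by
  rintro _ ⟨m, rfl⟩
  refine ⟨⟨?_, ?_⟩, ?_⟩
  · show (cobMap S U m).1 ∈ antiInv S
    rw [mem_antiInv]
    intro x
    simp only [cobMap_apply, Pi.sub_apply, pull_apply, hS2]
    ring
  · show (cobMap S U m).2 ∈ triZero U
    rw [mem_triZero]
    intro x
    simp only [cobMap_apply, Pi.sub_apply, pull_apply, hU3]
    ring
  · show tauMap T (cobMap S U m) ∈ cobT T
    refine ⟨m, ?_⟩
    funext x
    simp only [tauMap_apply, cobMap_apply, Pi.sub_apply, pull_apply, LinearMap.sub_apply,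
      LinearMap.id_apply, hU, mul_smul]
    ring

lemma xiMap_mem_cocycleSpace (hP : ∀ g h : G, P h → P (g⁻¹ * h * g))
    {φ : Additive Γ →+ ℂ} (hφ : φ ∈ parHoms Γ P) {S U T : G} (hU : U = S * T)
    (hS2 : ∀ x : G ⧸ Γ, S • S • x = x) (hU3 : ∀ x : G ⧸ Γ, U • U • U • x = x)
    (hPS : P (S * S)) (hPU : P (U * U * U)) (hT : ∀ k : ℤ, P (T ^ k)) :
    xiMap S U φ ∈ cocycleSpace (X := G ⧸ Γ) S U T := by
  refine ⟨⟨coc_mem_antiInv hP hφ hS2 hPS, coc_mem_triZero hP hφ hU3 hPU⟩, ?_⟩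
  show tauMap T (xiMap S U φ) ∈ cobT T
  have : tauMap T (xiMap S U φ) = coc φ T := by
    funext x
    simp only [tauMap_apply, xiMap_apply]
    rw [hU, coc_mul]
    ring
  rw [this]
  exact coc_mem_cobT hP hφ hT

/-- `Hom(Γ, ℂ)` is finite dimensional when `Γ` has finite index in the 2-generated group `G`. -/
theorem finiteDimensional_addHom [Finite (G ⧸ Γ)] {S U : G}
    (hgen : Subgroup.closure ({S, U} : Set G) = ⊤) :
    FiniteDimensional ℂ (Additive Γ →+ ℂ) := by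
  letI : Fintype (G ⧸ Γ) := Fintype.ofFinite _
  exact FiniteDimensional.of_injective (xiMap (Γ := Γ) S U) (xiMap_injective hgen)

/-- **The group-side bound.** -/
theorem six_mul_finrank_parHoms_le [Finite (G ⧸ Γ)] {S U T : G} (hU : U = S * T)
    (hgen : Subgroup.closure ({S, U} : Set G) = ⊤)
    (hP : ∀ g h : G, P h → P (g⁻¹ * h * g))
    (hS2 : ∀ x : G ⧸ Γ, S • S • x = x) (hU3 : ∀ x : G ⧸ Γ, U • U • U • x = x)
    (hPS : P (S * S)) (hPU : P (U * U * U)) (hT : ∀ k : ℤ, P (T ^ k)) :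
    6 * finrank ℂ (parHoms Γ P) + 3 * Nat.card {x : G ⧸ Γ // S • x = x}
      + 4 * Nat.card {x : G ⧸ Γ // U • x = x}
      + 6 * Nat.card (MulAction.orbitRel.Quotient (Subgroup.zpowers T) (G ⧸ Γ))
      ≤ Nat.card (G ⧸ Γ) + 12 := by
  classical
  letI : Fintype (G ⧸ Γ) := Fintype.ofFinite _
  have := finiteDimensional_addHom (Γ := Γ) hgen
  set A : Submodule ℂ (((G ⧸ Γ) → ℂ) × ((G ⧸ Γ) → ℂ)) := (parHoms Γ P).map (xiMap S U) with hA
  set B : Submodule ℂ (((G ⧸ Γ) → ℂ) × ((G ⧸ Γ) → ℂ)) := LinearMap.range (cobMap S U) with hB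
  have hAle : A ≤ cocycleSpace S U T := by
    rintro _ ⟨φ, hφ, rfl⟩
    exact xiMap_mem_cocycleSpace hP hφ hU hS2 hU3 hPS hPU hT
  have hBle : B ≤ cocycleSpace S U T := range_cobMap_le_cocycleSpace hU hS2 hU3
  have hdisj : Disjoint A B := by
    rw [Submodule.disjoint_def]
    rintro _ ⟨φ, -, rfl⟩ ⟨m, hm⟩
    have := eq_zero_of_xiMap_eq_cobMap hgen φ m hm.symm
    rw [this, map_zero]
  have hAdim : finrank ℂ A = finrank ℂ (parHoms Γ P) :=
    (Submodule.equivMapOfInjective (xiMap S U) (xiMap_injective hgen) (parHoms Γ P)).finrank_eq.symm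
  have hBdim : finrank ℂ B + 1 = Fintype.card (G ⧸ Γ) :=
    finrank_range_cobMap_add_one (X := G ⧸ Γ) hgen
  have hsup := Submodule.finrank_sup_add_finrank_inf_eq A B
  rw [hdisj.eq_bot, finrank_bot, add_zero] at hsup
  have hmono : finrank ℂ ↥(A ⊔ B) ≤ finrank ℂ (cocycleSpace (X := G ⧸ Γ) S U T) :=
    Submodule.finrank_mono (sup_le hAle hBle)
  have hmain := finrank_cocycleSpace_add_card_le (X := G ⧸ Γ) (T := T) hgen hS2 hU3
  have h2 := two_mul_finrank_antiInv (X := G ⧸ Γ) S hS2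
  have h3 := three_mul_finrank_triZero (X := G ⧸ Γ) U hU3
  have h4 : finrank ℂ (cobT (X := G ⧸ Γ) T)
      + Nat.card (MulAction.orbitRel.Quotient (Subgroup.zpowers T) (G ⧸ Γ))
      = Fintype.card (G ⧸ Γ) := finrank_cobT_add_card_orbits (X := G ⧸ Γ) T
  simp only [Fintype.card_eq_nat_card] at h2 h3 h4 hmain hBdim
  omega

end ParCocycle

end Fermat.Agent.S21
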