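import Mathlib
import Fermat.Prelude.Def_ModularCurve_PeriodHomPair
import Fermat.Prelude.Def_ModularCurve_GenusNumerics
import Fermat.Agent.S21.ParCocycle
import Fermat.Agent.S20.P1Index
import Fermat.Agent.S20.P1Fixed
import Fermat.Agent.S20.P1Cusps

/-!
# The group-side bound for `Γ₀(N)` (package G of S21)

`6 · dim Hom_par(Γ₀(N), ℂ) + 3 ν₂ + 4 ν₃ + 6 c ≤ ψ + 12`.
-/

set_option autoImplicit false

open Matrix MatrixGroups ModularGroup CongruenceSubgroup Matrix.SpecialLinearGroup Module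

namespace Fermat.Agent.S21

/-- The "parabolic or central" predicate `tr² = 4`. -/
def trPred (g : SL(2, ℤ)) : Prop := (g : Matrix (Fin 2) (Fin 2) ℤ).trace ^ 2 = 4

lemma parHoms_trPred_eq (N : ℕ) :
    parHoms (Gamma0 N) trPred = ModularCurve.Period.parabolicHoms ℂ (Gamma0 N) ℂ := rfl

lemma closure_S_ST : Subgroup.closure ({S, S * T} : Set SL(2, ℤ)) = ⊤ := by
  rw [eq_top_iff, ← SpecialLinearGroup.SL2Z_generators, Subgroup.closure_le]
  have h1 : S ∈ Subgroup.closure ({S, S * T} : Set SL(2, ℤ)) :=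
    Subgroup.subset_closure (by simp)
  have h2 : S * T ∈ Subgroup.closure ({S, S * T} : Set SL(2, ℤ)) :=
    Subgroup.subset_closure (by simp)
  rintro x (rfl | hx)
  · exact h1
  · rw [Set.mem_singleton_iff] at hx
    subst hx
    have := Subgroup.mul_mem _ (Subgroup.inv_mem _ h1) h2
    simpa using this

lemma trPred_conj (g h : SL(2, ℤ)) (hh : trPred h) : trPred (g⁻¹ * h * g) := by
  unfold trPred at hh ⊢
  have e : ((g⁻¹ * h * g : SL(2, ℤ)) : Matrix (Fin 2) (Fin 2) ℤ)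
      = (g⁻¹ : SL(2, ℤ)).1 * h.1 * g.1 := rfl
  have e2 : g.1 * (g⁻¹ : SL(2, ℤ)).1 = 1 := by
    have : ((g * g⁻¹ : SL(2, ℤ)) : Matrix (Fin 2) (Fin 2) ℤ) = g.1 * (g⁻¹ : SL(2, ℤ)).1 := rfl
    rw [← this, mul_inv_cancel]
    rfl
  rw [e, Matrix.trace_mul_cycle, e2, Matrix.one_mul]
  exact hh

lemma S_mul_S_eq_neg_one : (S * S : SL(2, ℤ)) = -1 := by
  ext i j
  fin_cases i <;> fin_cases j <;> simp [S, Matrix.mul_apply, Fin.sum_univ_two]

lemma ST_cube_eq_neg_one : (S * T * (S * T) * (S * T) : SL(2, ℤ)) = -1 := by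
  ext i j
  fin_cases i <;> fin_cases j <;> simp [S, T, Matrix.mul_apply, Fin.sum_univ_two]

lemma trPred_neg_one : trPred (-1 : SL(2, ℤ)) := by
  unfold trPred
  simp

lemma trPred_T_zpow (k : ℤ) : trPred (T ^ k) := by
  unfold trPred
  have h := coe_T_zpow k
  have h' : ((T ^ k : SL(2, ℤ)) : Matrix (Fin 2) (Fin 2) ℤ) = !![1, k; 0, 1] := h
  rw [h', Matrix.trace_fin_two]
  simp

lemma neg_one_smul_coset (N : ℕ) (x : SL(2, ℤ) ⧸ Gamma0 N) : (-1 : SL(2, ℤ)) • x = x := by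
  induction x using QuotientGroup.induction_on with
  | H g =>
    rw [Fermat.Agent.S20.S20_smul_mk, Fermat.Agent.S20.S20_mk_eq_mk_iff]
    have e : ((-1 : SL(2, ℤ)) * g) 0 0 * g 1 0 - ((-1 : SL(2, ℤ)) * g) 1 0 * g 0 0 = 0 := by
      simp
      ring
    rw [e]
    exact dvd_zero _

/-- **Package G.** The group-side bound for `Γ₀(N)`. -/
theorem finrank_parabolicHoms_le (N : ℕ) [NeZero N] :
    FiniteDimensional ℂ (ModularCurve.Period.parabolicHoms ℂ (Gamma0 N) ℂ) ∧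
    6 * finrank ℂ (ModularCurve.Period.parabolicHoms ℂ (Gamma0 N) ℂ)
      + 3 * ModularCurve.nuTwo N + 4 * ModularCurve.nuThree N + 6 * ModularCurve.cuspCount N
      ≤ ModularCurve.dedekindPsi N + 12 := by
  have hfd : FiniteDimensional ℂ (Additive (Gamma0 N) →+ ℂ) :=
    finiteDimensional_addHom (Γ := Gamma0 N) closure_S_ST
  refine ⟨inferInstance, ?_⟩
  have hS2 : ∀ x : SL(2, ℤ) ⧸ Gamma0 N, S • S • x = x := by
    intro x
    rw [← mul_smul, S_mul_S_eq_neg_one, neg_one_smul_coset]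
  have hU3 : ∀ x : SL(2, ℤ) ⧸ Gamma0 N, (S * T) • (S * T) • (S * T) • x = x := by
    intro x
    rw [← mul_smul, ← mul_smul, ST_cube_eq_neg_one, neg_one_smul_coset]
  have h := six_mul_finrank_parHoms_le (Γ := Gamma0 N) (P := trPred) (S := S) (U := S * T)
    (T := T) rfl closure_S_ST trPred_conj hS2 hU3
    (by rw [S_mul_S_eq_neg_one]; exact trPred_neg_one)
    (by rw [ST_cube_eq_neg_one]; exact trPred_neg_one) trPred_T_zpow
  have c1 := Fermat.Agent.S20.S20_card_Q N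
  have c2 := Fermat.Agent.S20.S20_card_fixed_S N
  have c3 := Fermat.Agent.S20.S20_card_fixed_ST N
  have c4 := Fermat.Agent.S20.S20_card_T_orbits N
  rw [parHoms_trPred_eq] at h
  rw [← c1, ← c2, ← c3, ← c4]
  exact h

end Fermat.Agent.S21
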