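import Mathlib

/-!
# S21, package P3 (part 1): a maximum principle for functions on the upper half plane which are
invariant under a finite index subgroup of `SL(2, ℤ)` and are real parts of holomorphic functions
of the `q`-parameter at every cusp.
-/

set_option autoImplicit false

open UpperHalfPlane hiding I
open Function Complex Filter Topology
open scoped Real Manifold MatrixGroups ModularForm

namespace Fermat.Agent.S21

/-- If the real part of a holomorphic function on the unit disc has a maximum at an interior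
point, the function is constant. -/
theorem S21_mp_const_of_re_max {Φ : ℂ → ℂ} (hΦ : DifferentiableOn ℂ Φ (Metric.ball 0 1))
    {q₀ : ℂ} (hq₀ : q₀ ∈ Metric.ball (0 : ℂ) 1)
    (hmax : ∀ q ∈ Metric.ball (0 : ℂ) 1, (Φ q).re ≤ (Φ q₀).re) :
    ∀ q ∈ Metric.ball (0 : ℂ) 1, Φ q = Φ q₀ := by
  have hconv : Convex ℝ (Metric.ball (0 : ℂ) 1) := convex_ball 0 1
  have hpre : IsPreconnected (Metric.ball (0 : ℂ) 1) := hconv.isPreconnected
  have hopen : IsOpen (Metric.ball (0 : ℂ) 1) := Metric.isOpen_ball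
  -- `exp ∘ Φ` is constant by the maximum modulus principle
  have hd : DifferentiableOn ℂ (fun q => Complex.exp (Φ q)) (Metric.ball 0 1) :=
    fun q hq => (hΦ q hq).cexp
  have hm : IsMaxOn (norm ∘ fun q => Complex.exp (Φ q)) (Metric.ball 0 1) q₀ := by
    intro q hq
    simp only [Function.comp_apply, Complex.norm_exp]
    exact Real.exp_le_exp.mpr (hmax q hq)
  have hexp := Complex.eqOn_of_isPreconnected_of_isMaxOn_norm hpre hopen hd hq₀ hm
  -- hence the derivative of `Φ` vanishes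
  have hderiv : Set.EqOn (deriv Φ) 0 (Metric.ball 0 1) := by
    intro q hq
    have hΦq : DifferentiableAt ℂ Φ q := (hΦ q hq).differentiableAt (hopen.mem_nhds hq)
    have h1 : HasDerivAt (fun q => Complex.exp (Φ q)) (Complex.exp (Φ q) * deriv Φ q) q :=
      hΦq.hasDerivAt.cexp
    have h2 : HasDerivAt (fun q => Complex.exp (Φ q)) 0 q := by
      have hc : HasDerivAt (fun _ : ℂ => Complex.exp (Φ q₀)) 0 q := hasDerivAt_const q _
      refine hc.congr_of_eventuallyEq ?_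
      filter_upwards [hopen.mem_nhds hq] with z hz
      exact hexp hz
    have h3 := h1.unique h2
    rcases mul_eq_zero.mp h3 with h | h
    · exact absurd h (Complex.exp_ne_zero _)
    · exact h
  intro q hq
  exact hopen.is_const_of_deriv_eq_zero hpre hΦ hderiv hq hq₀

/-- Values of the `q`-parameter on the upper half plane fill the punctured unit disc. -/
theorem S21_exists_qParam_eq {M : ℝ} (hM : 0 < M) {q : ℂ} (hq : q ∈ Metric.ball (0 : ℂ) 1)
    (hq0 : q ≠ 0) : ∃ w : ℍ, Periodic.qParam M (w : ℂ) = q := by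
  have hq' : ‖q‖ < 1 := by simpa using hq
  refine ⟨⟨Periodic.invQParam M q, Periodic.im_invQParam_pos_of_norm_lt_one hM hq' hq0⟩, ?_⟩
  exact Periodic.qParam_right_inv hM.ne' hq0

/-- A bound valid on the punctured disc extends to the centre by continuity. -/
theorem S21_re_le_at_zero {Φ : ℂ → ℂ} (hΦ : DifferentiableOn ℂ Φ (Metric.ball 0 1)) {A : ℝ}
    (h : ∀ q ∈ Metric.ball (0 : ℂ) 1, q ≠ 0 → (Φ q).re ≤ A) : (Φ 0).re ≤ A := by
  have hopen : IsOpen (Metric.ball (0 : ℂ) 1) := Metric.isOpen_ball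
  have h0 : (0 : ℂ) ∈ Metric.ball (0 : ℂ) 1 := Metric.mem_ball_self one_pos
  have hcont : ContinuousAt Φ 0 := ((hΦ 0 h0).differentiableAt (hopen.mem_nhds h0)).continuousAt
  have hcont' : ContinuousAt (fun q => (Φ q).re) 0 := Complex.continuous_re.continuousAt.comp hcont
  have ht : Tendsto (fun q => (Φ q).re) (𝓝[≠] (0 : ℂ)) (𝓝 (Φ 0).re) :=
    hcont'.tendsto.mono_left nhdsWithin_le_nhds
  refine le_of_tendsto ht ?_
  have hmem : Metric.ball (0 : ℂ) 1 ∩ {0}ᶜ ∈ 𝓝[≠] (0 : ℂ) :=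
    inter_mem (mem_nhdsWithin_of_mem_nhds (hopen.mem_nhds h0)) self_mem_nhdsWithin
  filter_upwards [hmem] with q hq
  exact h q hq.1 hq.2

/-- same with a lower bound -/
theorem S21_le_re_at_zero {Φ : ℂ → ℂ} (hΦ : DifferentiableOn ℂ Φ (Metric.ball 0 1)) {A : ℝ}
    (h : ∀ q ∈ Metric.ball (0 : ℂ) 1, q ≠ 0 → A ≤ (Φ q).re) : A ≤ (Φ 0).re := by
  have hopen : IsOpen (Metric.ball (0 : ℂ) 1) := Metric.isOpen_ball
  have h0 : (0 : ℂ) ∈ Metric.ball (0 : ℂ) 1 := Metric.mem_ball_self one_pos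
  have hcont : ContinuousAt Φ 0 := ((hΦ 0 h0).differentiableAt (hopen.mem_nhds h0)).continuousAt
  have hcont' : ContinuousAt (fun q => (Φ q).re) 0 := Complex.continuous_re.continuousAt.comp hcont
  have ht : Tendsto (fun q => (Φ q).re) (𝓝[≠] (0 : ℂ)) (𝓝 (Φ 0).re) :=
    hcont'.tendsto.mono_left nhdsWithin_le_nhds
  refine ge_of_tendsto ht ?_
  have hmem : Metric.ball (0 : ℂ) 1 ∩ {0}ᶜ ∈ 𝓝[≠] (0 : ℂ) :=
    inter_mem (mem_nhdsWithin_of_mem_nhds (hopen.mem_nhds h0)) self_mem_nhdsWithin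
  filter_upwards [hmem] with q hq
  exact h q hq.1 hq.2

/-- If `Re Φ ∘ q` is constant on the upper half plane, then `Φ` is constant on the disc. -/
theorem S21_mp_const_of_re_const {M : ℝ} (hM : 0 < M) {Φ : ℂ → ℂ}
    (hΦ : DifferentiableOn ℂ Φ (Metric.ball 0 1)) {A : ℝ}
    (h : ∀ w : ℍ, (Φ (Periodic.qParam M (w : ℂ))).re = A) :
    ∀ q ∈ Metric.ball (0 : ℂ) 1, Φ q = Φ 0 := by
  have h0 : (0 : ℂ) ∈ Metric.ball (0 : ℂ) 1 := Metric.mem_ball_self one_pos
  have hne : ∀ q ∈ Metric.ball (0 : ℂ) 1, q ≠ 0 → (Φ q).re = A := by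
    intro q hq hq0
    obtain ⟨w, rfl⟩ := S21_exists_qParam_eq hM hq hq0
    exact h w
  have hzero : (Φ 0).re = A :=
    le_antisymm (S21_re_le_at_zero hΦ fun q hq hq0 => (hne q hq hq0).le)
      (S21_le_re_at_zero hΦ fun q hq hq0 => (hne q hq hq0).ge)
  refine S21_mp_const_of_re_max hΦ h0 fun q hq => ?_
  by_cases hq0 : q = 0
  · rw [hq0]
  · rw [hne q hq hq0, hzero]

/-- **Maximum principle.** Let `Γ` be a finite index subgroup of `SL(2, ℤ)` and `h : ℍ → ℝ` a
`Γ`-invariant function such that for every `δ ∈ SL(2, ℤ)` the function `w ↦ h (δ • w)` is the real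
part of a holomorphic function of `q = exp (2 π i w / M)` on the unit disc. Then `h` is constant. -/
theorem S21_maxPrinciple (Γ : Subgroup SL(2, ℤ)) [Γ.FiniteIndex] {M : ℝ} (hM : 0 < M)
    (h : ℍ → ℝ) (hinv : ∀ γ ∈ Γ, ∀ z : ℍ, h (γ • z) = h z)
    (hcusp : ∀ δ : SL(2, ℤ), ∃ Φ : ℂ → ℂ, DifferentiableOn ℂ Φ (Metric.ball 0 1) ∧
      ∀ w : ℍ, h (δ • w) = (Φ (Periodic.qParam M (w : ℂ))).re) :
    ∃ A : ℝ, ∀ z : ℍ, h z = A := by
  classical
  choose Φ hΦd hΦ using hcusp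
  let _ : Fintype (SL(2, ℤ) ⧸ Γ) := Subgroup.fintypeQuotientOfFiniteIndex
  -- the radius
  set ρ : ℝ := Real.exp (-π / M) with hρ
  have hρpos : 0 < ρ := Real.exp_pos _
  have hρlt : ρ < 1 := by
    rw [hρ, Real.exp_lt_one_iff]
    exact div_neg_of_neg_of_pos (neg_lt_zero.mpr Real.pi_pos) hM
  have hsub : Metric.closedBall (0 : ℂ) ρ ⊆ Metric.ball (0 : ℂ) 1 :=
    Metric.closedBall_subset_ball hρlt
  have hcompact : IsCompact (Metric.closedBall (0 : ℂ) ρ) := isCompact_closedBall 0 ρ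
  have hne : (Metric.closedBall (0 : ℂ) ρ).Nonempty := ⟨0, Metric.mem_closedBall_self hρpos.le⟩
  -- maxima on the closed ball for every `δ`
  have hmaxδ : ∀ δ : SL(2, ℤ), ∃ q ∈ Metric.closedBall (0 : ℂ) ρ,
      ∀ q' ∈ Metric.closedBall (0 : ℂ) ρ, (Φ δ q').re ≤ (Φ δ q).re := by
    intro δ
    have hcont : ContinuousOn (fun q => (Φ δ q).re) (Metric.closedBall (0 : ℂ) ρ) :=
      Complex.continuous_re.comp_continuousOn ((hΦd δ).continuousOn.mono hsub)
    obtain ⟨q, hq, hqmax⟩ := hcompact.exists_isMaxOn hne hcont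
    exact ⟨q, hq, fun q' hq' => hqmax hq'⟩
  choose qmax hqmem hqmax using hmaxδ
  -- representatives
  let rep : SL(2, ℤ) ⧸ Γ → SL(2, ℤ) := fun x => (Quotient.out x)⁻¹
  obtain ⟨x₀, -, hx₀⟩ := Finset.exists_max_image (Finset.univ : Finset (SL(2, ℤ) ⧸ Γ))
    (fun x => (Φ (rep x) (qmax (rep x))).re) ⟨(QuotientGroup.mk 1 : SL(2, ℤ) ⧸ Γ), Finset.mem_univ _⟩
  set r₀ := rep x₀ with hr₀
  set A : ℝ := (Φ r₀ (qmax r₀)).re with hA
  -- `q`-parameter of points of the fundamental domain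
  have hqfd : ∀ w : ℍ, w ∈ ModularGroup.fd → Periodic.qParam M (w : ℂ) ∈ Metric.closedBall (0 : ℂ) ρ := by
    intro w hw
    rw [mem_closedBall_zero_iff, Periodic.norm_qParam, hρ, Real.exp_le_exp]
    have h3 := ModularGroup.three_le_four_mul_im_sq_of_mem_fd hw
    have him : (1 : ℝ) / 2 ≤ w.im := by
      by_contra hcon
      push Not at hcon
      have hpos := w.im_pos
      nlinarith
    have him' : ((w : ℂ)).im = w.im := rfl
    rw [him', div_le_div_iff_of_pos_right hM]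
    nlinarith [Real.pi_pos]
  -- global bound
  have hbound : ∀ z : ℍ, h z ≤ A := by
    intro z
    obtain ⟨g, hg⟩ := ModularGroup.exists_smul_mem_fd z
    set w := g • z with hw
    -- `g⁻¹ = γ * rep x` with `γ ∈ Γ`
    set x : SL(2, ℤ) ⧸ Γ := QuotientGroup.mk g with hx
    have hγ : (Quotient.out x)⁻¹ * g ∈ Γ := by
      have : (QuotientGroup.mk (Quotient.out x) : SL(2, ℤ) ⧸ Γ) = QuotientGroup.mk g := by
        rw [hx]; exact QuotientGroup.out_eq' _
      exact QuotientGroup.eq.mp this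
    -- `z = g⁻¹ • w`, `g⁻¹ = (out⁻¹ g)⁻¹ * out⁻¹`
    have hz : z = ((Quotient.out x)⁻¹ * g)⁻¹ • (rep x • w) := by
      rw [hw, ← mul_smul, ← mul_smul]
      simp [rep, mul_assoc]
    rw [hz, hinv _ (Γ.inv_mem hγ), hΦ (rep x) w]
    calc (Φ (rep x) (Periodic.qParam M (w : ℂ))).re
        ≤ (Φ (rep x) (qmax (rep x))).re := hqmax (rep x) _ (hqfd w hg)
      _ ≤ A := hx₀ x (Finset.mem_univ _)
  -- bound on the disc
  have hdisc : ∀ q ∈ Metric.ball (0 : ℂ) 1, (Φ r₀ q).re ≤ (Φ r₀ (qmax r₀)).re := by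
    have hne0 : ∀ q ∈ Metric.ball (0 : ℂ) 1, q ≠ 0 → (Φ r₀ q).re ≤ A := by
      intro q hq hq0
      obtain ⟨w, rfl⟩ := S21_exists_qParam_eq hM hq hq0
      rw [← hΦ r₀ w]
      exact hbound _
    intro q hq
    by_cases hq0 : q = 0
    · rw [hq0]
      exact S21_re_le_at_zero (hΦd r₀) hne0
    · exact hne0 q hq hq0
  have hconst := S21_mp_const_of_re_max (hΦd r₀) (hsub (hqmem r₀)) hdisc
  refine ⟨A, fun z => ?_⟩
  have hz : z = r₀ • (r₀⁻¹ • z) := by rw [← mul_smul, mul_inv_cancel, one_smul]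
  rw [hz, hΦ r₀, hconst _ ?_]
  rw [mem_ball_zero_iff]
  exact Periodic.norm_qParam_lt_one hM (r₀⁻¹ • z).im_pos

end Fermat.Agent.S21
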