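import Fermat.Agent.S21.Prim
import Fermat.Agent.S21.MaxPrinciple

/-!
# S21, package P3: injectivity of `periodHomPair N`.
-/

set_option autoImplicit false

open UpperHalfPlane hiding I
open Function Complex Filter Topology
open Matrix.SpecialLinearGroup CongruenceSubgroup
open ModularCurve ModularCurve.Period
open scoped Real Manifold MatrixGroups ModularForm ComplexConjugate

namespace Fermat.Agent.S21

open Fermat.Agent.S22

/-- Conjugation by `J = diag(-1, 1)` is the involution `jConjSL`. -/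
theorem S21_mapGL_jConj_mul_J (γ : SL(2, ℤ)) :
    mapGL ℝ (jConjSL γ) * UpperHalfPlane.J = UpperHalfPlane.J * mapGL ℝ γ := by
  apply Matrix.GeneralLinearGroup.ext
  intro i j
  fin_cases i <;> fin_cases j <;>
    simp [Matrix.mul_apply, Fin.sum_univ_two, jConjMat]

theorem S21_jConj_smul_J (γ : SL(2, ℤ)) (z : ℍ) :
    (jConjSL γ) • (UpperHalfPlane.J • z) = UpperHalfPlane.J • (γ • z) := by
  have h1 : (jConjSL γ) • (UpperHalfPlane.J • z)
      = (mapGL ℝ (jConjSL γ) * UpperHalfPlane.J) • z := by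
    rw [mul_smul]; rfl
  have h2 : UpperHalfPlane.J • (γ • z) = (UpperHalfPlane.J * mapGL ℝ γ) • z := by
    rw [mul_smul]; rfl
  rw [h1, h2, S21_mapGL_jConj_mul_J]

/-- The `q`-parameter of `J • w = -conj w`. -/
theorem S21_qParam_J (M : ℝ) (w : ℍ) :
    Periodic.qParam M ((UpperHalfPlane.J • w : ℍ) : ℂ) = conj (Periodic.qParam M (w : ℂ)) := by
  rw [coe_J_smul]
  unfold Periodic.qParam
  rw [← Complex.exp_conj]
  congr 1
  simp only [map_div₀, map_mul, Complex.conj_I, Complex.conj_ofReal, map_ofNat]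
  ring

variable {N : ℕ} [NeZero N]

/-- Cusp expansion of the canonical primitive at the cusp `δ ∞`. -/
theorem S21_prim_cusp_expansion (f : CuspForm (Gamma0 N) 2) :
    ∃ M : ℕ, 0 < M ∧ ∀ δ : SL(2, ℤ), ∃ (φ : ℂ → ℂ) (c : ℂ),
      DifferentiableOn ℂ φ (Metric.ball 0 1) ∧
      ∀ w : ℍ, S21_prim ⇑f (δ • w) = φ (Periodic.qParam (M : ℝ) (w : ℂ)) + c := by
  obtain ⟨M, hM, hcl⟩ := exists_period_isCuspLike N 2 f
  have hMpos : (0 : ℝ) < (M : ℝ) := by exact_mod_cast hM
  refine ⟨M, hM, fun δ => ?_⟩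
  obtain ⟨c, hc⟩ := S21_prim_smul_sub_const f δ
  have hE : IsCuspLike (M : ℝ) (S21_prim (⇑f ∣[(2 : ℤ)] (mapGL ℝ δ))) := (hcl δ).E hMpos 1
  refine ⟨cuspFunction (M : ℝ) (S21_prim (⇑f ∣[(2 : ℤ)] (mapGL ℝ δ))), c,
    differentiableOn_cuspFunction_ball hMpos hE.per hE.hol hE.zero.isBoundedAtImInfty, fun w => ?_⟩
  rw [eq_cuspFunction w hMpos.ne' hE.per]
  linear_combination hc w

/-- `q ↦ conj (φ (conj q))` is holomorphic on the unit disc if `φ` is. -/
theorem S21_differentiableOn_conj_conj {φ : ℂ → ℂ} (hφ : DifferentiableOn ℂ φ (Metric.ball 0 1)) :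
    DifferentiableOn ℂ (fun q => conj (φ (conj q))) (Metric.ball 0 1) := by
  intro q hq
  have hq' : conj q ∈ Metric.ball (0 : ℂ) 1 := by
    rw [mem_ball_zero_iff] at hq ⊢
    rwa [RCLike.norm_conj]
  have h1 : DifferentiableAt ℂ φ (conj q) :=
    (hφ _ hq').differentiableAt (Metric.isOpen_ball.mem_nhds hq')
  have h2 := h1.conj_conj
  rw [Complex.conj_conj] at h2
  exact h2.differentiableWithinAt

/-- **Key lemma for injectivity.** If `P_f(γ) + ε P_f(γ^j) = 0` for all `γ ∈ Γ₀(N)`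
(`ε = ±1` real), then `f = 0`. -/
theorem S21_eq_zero_of_period_symm (f : CuspForm (Gamma0 N) 2) (ε : ℝ)
    (h : ∀ γ : Gamma0 N, periodMap N f (Additive.ofMul γ)
      + (ε : ℂ) * periodMap N f (Additive.ofMul (jConjGamma0 N γ)) = 0) : f = 0 := by
  set F : ℍ → ℂ := S21_prim ⇑f with hF
  -- the invariant harmonic function
  set u : ℍ → ℂ := fun z => F z + (ε : ℂ) * F (UpperHalfPlane.J • z) with hu
  have hinv : ∀ γ ∈ Gamma0 N, ∀ z : ℍ, u (γ • z) = u z := by
    intro γ hγ z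
    have h1 := S21_periodMap_apply' f ⟨γ, hγ⟩ z
    have h2 := S21_periodMap_apply' f (jConjGamma0 N ⟨γ, hγ⟩) (UpperHalfPlane.J • z)
    have h3 := h ⟨γ, hγ⟩
    rw [h1, h2] at h3
    simp only [jConjGamma0_coe] at h3
    rw [S21_jConj_smul_J] at h3
    simp only [hu]
    linear_combination h3
  obtain ⟨M, hM, hexp⟩ := S21_prim_cusp_expansion f
  have hMpos : (0 : ℝ) < (M : ℝ) := by exact_mod_cast hM
  choose φ c hφ hφc using hexp
  -- the two holomorphic functions on the disc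
  set Φ₁ : SL(2, ℤ) → ℂ → ℂ := fun δ q =>
    φ δ q + c δ + (ε : ℂ) * (conj (φ (jConjSL δ) (conj q)) + conj (c (jConjSL δ))) with hΦ₁
  set Φ₂ : SL(2, ℤ) → ℂ → ℂ := fun δ q =>
    -Complex.I * (φ δ q + c δ - (ε : ℂ) * (conj (φ (jConjSL δ) (conj q)) + conj (c (jConjSL δ))))
    with hΦ₂
  have hΦ₁d : ∀ δ, DifferentiableOn ℂ (Φ₁ δ) (Metric.ball 0 1) := by
    intro δ
    exact ((hφ δ).add_const _).add
      (((S21_differentiableOn_conj_conj (hφ (jConjSL δ))).add_const _).const_mul _)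
  have hΦ₂d : ∀ δ, DifferentiableOn ℂ (Φ₂ δ) (Metric.ball 0 1) := by
    intro δ
    exact (((hφ δ).add_const _).sub
      (((S21_differentiableOn_conj_conj (hφ (jConjSL δ))).add_const _).const_mul _)).const_mul _
  -- values of `u` at the cusps
  have hucusp : ∀ (δ : SL(2, ℤ)) (w : ℍ), u (δ • w)
      = φ δ (Periodic.qParam (M : ℝ) (w : ℂ)) + c δ
        + (ε : ℂ) * (φ (jConjSL δ) (conj (Periodic.qParam (M : ℝ) (w : ℂ))) + c (jConjSL δ)) := by
    intro δ w
    simp only [hu]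
    rw [← S21_jConj_smul_J, hF, hφc δ w, hφc (jConjSL δ) (UpperHalfPlane.J • w), S21_qParam_J]
  have hre : ∀ (δ : SL(2, ℤ)) (w : ℍ),
      (u (δ • w)).re = (Φ₁ δ (Periodic.qParam (M : ℝ) (w : ℂ))).re := by
    intro δ w
    rw [hucusp]
    simp only [hΦ₁, Complex.add_re, Complex.mul_re, Complex.ofReal_re, Complex.ofReal_im,
      Complex.conj_re, Complex.conj_im, zero_mul, sub_zero]
  have him : ∀ (δ : SL(2, ℤ)) (w : ℍ),
      (u (δ • w)).im = (Φ₂ δ (Periodic.qParam (M : ℝ) (w : ℂ))).re := by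
    intro δ w
    rw [hucusp]
    simp only [hΦ₂, Complex.add_re, Complex.add_im, Complex.mul_re, Complex.mul_im,
      Complex.ofReal_re, Complex.ofReal_im, Complex.conj_re, Complex.conj_im, Complex.neg_re,
      Complex.neg_im, Complex.I_re, Complex.I_im, Complex.sub_re, Complex.sub_im, zero_mul]
    ring
  -- apply the maximum principle
  obtain ⟨A₁, hA₁⟩ := S21_maxPrinciple (Gamma0 N) hMpos (fun z => (u z).re)
    (fun γ hγ z => by simp only [hinv γ hγ z])
    (fun δ => ⟨Φ₁ δ, hΦ₁d δ, fun w => hre δ w⟩)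
  obtain ⟨A₂, hA₂⟩ := S21_maxPrinciple (Gamma0 N) hMpos (fun z => (u z).im)
    (fun γ hγ z => by simp only [hinv γ hγ z])
    (fun δ => ⟨Φ₂ δ, hΦ₂d δ, fun w => him δ w⟩)
  -- hence `Φ₁ 1` and `Φ₂ 1` are constant on the disc
  have hc1 := S21_mp_const_of_re_const hMpos (hΦ₁d 1) (A := A₁)
    (fun w => by rw [← hre 1 w]; exact hA₁ _)
  have hc2 := S21_mp_const_of_re_const hMpos (hΦ₂d 1) (A := A₂)
    (fun w => by rw [← him 1 w]; exact hA₂ _)
  -- so `φ 1` is constant on the disc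
  have hφconst : ∀ q ∈ Metric.ball (0 : ℂ) 1, φ 1 q = φ 1 0 := by
    intro q hq
    have e1 := hc1 q hq
    have e2 := hc2 q hq
    simp only [hΦ₁, hΦ₂] at e1 e2
    have e2' := mul_left_cancel₀ (neg_ne_zero.mpr Complex.I_ne_zero) e2
    linear_combination (1 / 2 : ℂ) * e1 + (1 / 2 : ℂ) * e2'
  -- so `F` is constant
  have hFconst : ∀ z : ℍ, F z = F UpperHalfPlane.I := by
    intro z
    have hz := hφc 1 z
    have hI := hφc 1 UpperHalfPlane.I
    rw [one_smul] at hz hI
    rw [hF, hz, hI, hφconst _ ?_, hφconst (Periodic.qParam (M : ℝ) ((UpperHalfPlane.I : ℍ) : ℂ)) ?_]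
    · rw [mem_ball_zero_iff]
      exact Periodic.norm_qParam_lt_one hMpos UpperHalfPlane.I.im_pos
    · rw [mem_ball_zero_iff]
      exact Periodic.norm_qParam_lt_one hMpos z.im_pos
  -- so `f = 0`
  ext τ
  have hd : HasDerivAt (F ∘ ofComplex) (f τ) (τ : ℂ) := S21_hasDerivH_prim f τ
  have hd0 : HasDerivAt (F ∘ ofComplex) 0 (τ : ℂ) := by
    have hc : HasDerivAt (fun _ : ℂ => F UpperHalfPlane.I) 0 (τ : ℂ) := hasDerivAt_const _ _
    refine hc.congr_of_eventuallyEq ?_
    exact Eventually.of_forall fun z => hFconst _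
  simpa using hd.unique hd0

omit [NeZero N] in
theorem S21_periodHomPair_apply_eval
    (pml : CuspForm (Gamma0 N) 2 →ₗ[ℂ] (Additive (Gamma0 N) →+ ℂ))
    (hpml : ∀ f, pml f = periodMap N f)
    (hdef : periodHomPair N = LinearMap.coprod
        ((LinearMap.id + charInvolution N ℂ ℂ) ∘ₗ pml)
        ((LinearMap.id - charInvolution N ℂ ℂ) ∘ₗ pml))
    (f g : CuspForm (Gamma0 N) 2) (γ : Gamma0 N) :
    periodHomPair N (f, g) (Additive.ofMul γ)
      = (periodMap N f (Additive.ofMul γ) + periodMap N f (Additive.ofMul (jConjGamma0 N γ)))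
        + (periodMap N g (Additive.ofMul γ)
            - periodMap N g (Additive.ofMul (jConjGamma0 N γ))) := by
  rw [hdef]
  simp only [LinearMap.coprod_apply, LinearMap.comp_apply, LinearMap.add_apply,
    LinearMap.sub_apply, LinearMap.id_apply, hpml, AddMonoidHom.add_apply,
    AddMonoidHom.sub_apply, charInvolution_apply, toMul_ofMul]

end Fermat.Agent.S21

namespace Fermat.Agent.S21

/-- Package P1 interface alias. -/
theorem existsPeriodMapLinear (N : ℕ) [NeZero N] : ModularCurve.ExistsPeriodMapLinear N :=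
  S21_existsPeriodMapLinear N

/-- **Package P3.** The period pairing `(f, g) ↦ (P_f + ι P_f) + (P_g - ι P_g)` is injective. -/
theorem periodHomPair_injective (N : ℕ) [NeZero N] :
    Function.Injective (ModularCurve.periodHomPair N) := by
  obtain ⟨pml, hpml, hdef⟩ := periodHomPair_def N (S21_existsPeriodMapLinear N)
  rw [← LinearMap.ker_eq_bot, LinearMap.ker_eq_bot']
  rintro ⟨f, g⟩ hfg
  have hev : ∀ γ : Gamma0 N,
      (periodMap N f (Additive.ofMul γ) + periodMap N f (Additive.ofMul (jConjGamma0 N γ)))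
        + (periodMap N g (Additive.ofMul γ)
            - periodMap N g (Additive.ofMul (jConjGamma0 N γ))) = 0 := by
    intro γ
    rw [← S21_periodHomPair_apply_eval pml hpml hdef f g γ, hfg]
    rfl
  have hf : f = 0 := by
    refine S21_eq_zero_of_period_symm f 1 fun γ => ?_
    have h1 := hev γ
    have h2 := hev (jConjGamma0 N γ)
    rw [jConjGamma0_jConjGamma0] at h2
    push_cast
    linear_combination (1 / 2 : ℂ) * h1 + (1 / 2 : ℂ) * h2
  have hg : g = 0 := by
    refine S21_eq_zero_of_period_symm g (-1) fun γ => ?_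
    have h1 := hev γ
    have h2 := hev (jConjGamma0 N γ)
    rw [jConjGamma0_jConjGamma0] at h2
    push_cast
    linear_combination (1 / 2 : ℂ) * h1 - (1 / 2 : ℂ) * h2
  rw [hf, hg]
  rfl

end Fermat.Agent.S21
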