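import Fermat.Prelude.Def_ModularCurve_PeriodHomPair
import Fermat.Agent.S22.SepInv
import Fermat.Agent.S22.CuspLike

/-!
# S21, package P1: the canonical equivariant primitive of a weight `2` cusp form on `Γ₀(N)`,
and linearity of the period map (`ExistsPeriodMapLinear N`).
-/

set_option autoImplicit false

open UpperHalfPlane hiding I
open Function Complex Filter Topology
open Matrix.SpecialLinearGroup CongruenceSubgroup
open ModularCurve ModularCurve.Period
open scoped Real Manifold MatrixGroups ModularForm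

namespace Fermat.Agent.S21

open Fermat.Agent.S22

/-- The canonical primitive (vanishing at `i∞`) of a function with a tower. -/
noncomputable def S21_prim (f : ℍ → ℂ) : ℍ → ℂ := E f 1

theorem S21_J_zero (f : ℍ → ℂ) (x y : ℂ) (τ : ℍ) : S22.J 0 f x y τ = S21_prim f τ := by
  simp [S22.J, S21_prim]

variable {N : ℕ} [NeZero N]

theorem S21_hasTower (f : CuspForm (Gamma0 N) 2) : HasTower ⇑f :=
  (isCuspLike_one f).hasTower one_pos

theorem S21_hasDerivH_prim (f : CuspForm (Gamma0 N) 2) : HasDerivH (S21_prim ⇑f) ⇑f := by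
  have hT := (S21_hasTower f).isTower
  have := hT.deriv 0
  rwa [hT.zero] at this

theorem S21_prim_zero_at_infty (f : CuspForm (Gamma0 N) 2) :
    Tendsto (S21_prim ⇑f) atImInfty (𝓝 0) :=
  (S21_hasTower f).isTower.decay 0

/-- For every `δ ∈ SL(2, ℤ)`: `F ∘ δ` differs from the canonical primitive of `f ∣[2] δ` by a
constant. -/
theorem S21_prim_smul_sub_const (f : CuspForm (Gamma0 N) 2) (δ : SL(2, ℤ)) :
    ∃ c : ℂ, ∀ τ : ℍ, S21_prim ⇑f (δ • τ) - S21_prim (⇑f ∣[(2 : ℤ)] (mapGL ℝ δ)) τ = c := by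
  obtain ⟨M, hM, hcl⟩ := exists_period_isCuspLike N 2 f
  have hMpos : (0 : ℝ) < (M : ℝ) := by exact_mod_cast hM
  have hTg : HasTower (⇑f ∣[(2 : ℤ)] (mapGL ℝ δ)) := (hcl δ).hasTower hMpos
  refine ⟨S21_prim ⇑f (δ • UpperHalfPlane.I) -
    S21_prim (⇑f ∣[(2 : ℤ)] (mapGL ℝ δ)) UpperHalfPlane.I, fun τ => ?_⟩
  have h := J_comp_sub_const (w := 0) (k := 2) (by norm_num) (S21_hasTower f) (sep_det_pos δ) hTg
    0 0 τ UpperHalfPlane.I
  simp only [S21_J_zero] at h
  exact h

omit [NeZero N] in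
theorem S21_slash_eq (f : CuspForm (Gamma0 N) 2) {γ : SL(2, ℤ)} (hγ : γ ∈ Gamma0 N) :
    ⇑f ∣[(2 : ℤ)] (mapGL ℝ γ) = ⇑f :=
  SlashInvariantFormClass.slash_action_eq f _ (Subgroup.mem_map_of_mem _ hγ)

/-- The canonical primitive is an equivariant primitive in the sense of the Prelude. -/
theorem S21_hasEquivariantPrimitive (f : CuspForm (Gamma0 N) 2) :
    HasEquivariantPrimitive N f (S21_prim ⇑f) := by
  refine ⟨S21_hasDerivH_prim f, S21_prim_zero_at_infty f, ?_, ?_⟩
  · intro γ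
    obtain ⟨c, hc⟩ := S21_prim_smul_sub_const f (γ : SL(2, ℤ))
    refine ⟨c, fun z => ?_⟩
    have := hc z
    rwa [S21_slash_eq f γ.2] at this
  · intro δ
    obtain ⟨c, hc⟩ := S21_prim_smul_sub_const f δ
    obtain ⟨M, hM, hcl⟩ := exists_period_isCuspLike N 2 f
    have hMpos : (0 : ℝ) < (M : ℝ) := by exact_mod_cast hM
    have hTg : HasTower (⇑f ∣[(2 : ℤ)] (mapGL ℝ δ)) := (hcl δ).hasTower hMpos
    have hdec : Tendsto (S21_prim (⇑f ∣[(2 : ℤ)] (mapGL ℝ δ))) atImInfty (𝓝 0) :=
      hTg.isTower.decay 0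
    refine ⟨c, ?_⟩
    have hfun : (fun w : ℍ => S21_prim ⇑f (δ • w))
        = fun w : ℍ => S21_prim (⇑f ∣[(2 : ℤ)] (mapGL ℝ δ)) w + c := by
      funext w
      have := hc w
      linear_combination this
    rw [hfun]
    simpa using hdec.add_const c

/-- Uniqueness of the equivariant primitive. -/
theorem S21_prim_unique (f : CuspForm (Gamma0 N) 2) {F : ℍ → ℂ}
    (hF : HasEquivariantPrimitive N f F) : F = S21_prim ⇑f := by
  have hD : HasDerivH (F - S21_prim ⇑f) 0 := by
    have h1 : HasDerivH F ⇑f := hF.1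
    have := h1.sub (S21_hasDerivH_prim f)
    rwa [sub_self] at this
  have h0 : IsZeroAtImInfty (F - S21_prim ⇑f) := by
    have := Tendsto.sub hF.2.1 (S21_prim_zero_at_infty f)
    rw [sub_zero] at this
    exact this
  exact sub_eq_zero.mp (eq_zero_of_hasDerivH_zero hD h0)

/-- Formula for the period map. -/
theorem S21_periodMap_apply (f : CuspForm (Gamma0 N) 2) (γ : Gamma0 N) :
    periodMap N f (Additive.ofMul γ)
      = S21_prim ⇑f ((γ : SL(2, ℤ)) • UpperHalfPlane.I) - S21_prim ⇑f UpperHalfPlane.I := by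
  obtain ⟨F₀, h₀, hF₀⟩ := periodMap_def N f (S21_hasEquivariantPrimitive f)
  have hF₀eq : F₀ = S21_prim ⇑f := S21_prim_unique f h₀
  subst hF₀eq
  rw [hF₀]
  rfl

/-- Formula for the period map at an arbitrary base point. -/
theorem S21_periodMap_apply' (f : CuspForm (Gamma0 N) 2) (γ : Gamma0 N) (z : ℍ) :
    periodMap N f (Additive.ofMul γ)
      = S21_prim ⇑f ((γ : SL(2, ℤ)) • z) - S21_prim ⇑f z := by
  rw [S21_periodMap_apply]
  obtain ⟨c, hc⟩ := (S21_hasEquivariantPrimitive f).2.2.1 γ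
  rw [hc z, hc UpperHalfPlane.I]

theorem S21_prim_add (f g : CuspForm (Gamma0 N) 2) :
    S21_prim ⇑(f + g) = S21_prim ⇑f + S21_prim ⇑g := by
  unfold S21_prim
  rw [FunLike.coe_add, E_add (S21_hasTower f) (S21_hasTower g)]
  rfl

theorem S21_prim_smul (c : ℂ) (f : CuspForm (Gamma0 N) 2) :
    S21_prim ⇑(c • f) = c • S21_prim ⇑f := by
  unfold S21_prim
  rw [FunLike.coe_smul, E_smul (S21_hasTower f)]
  rfl

/-- The period map as a linear map. -/
noncomputable def S21_pml (N : ℕ) [NeZero N] :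
    CuspForm (Gamma0 N) 2 →ₗ[ℂ] (Additive (Gamma0 N) →+ ℂ) where
  toFun f := periodMap N f
  map_add' f g := by
    refine AddMonoidHom.ext fun γ => ?_
    obtain ⟨γ, rfl⟩ := Additive.ofMul.surjective γ
    rw [AddMonoidHom.add_apply, S21_periodMap_apply, S21_periodMap_apply, S21_periodMap_apply,
      S21_prim_add]
    simp only [Pi.add_apply]
    ring
  map_smul' c f := by
    refine AddMonoidHom.ext fun γ => ?_
    obtain ⟨γ, rfl⟩ := Additive.ofMul.surjective γ
    rw [RingHom.id_apply, AddMonoidHom.smul_apply, S21_periodMap_apply, S21_periodMap_apply,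
      S21_prim_smul]
    simp only [Pi.smul_apply, smul_eq_mul]
    ring

@[simp] theorem S21_pml_apply (f : CuspForm (Gamma0 N) 2) : S21_pml N f = periodMap N f := rfl

/-- **P1**: the period map is linear. -/
theorem S21_existsPeriodMapLinear (N : ℕ) [NeZero N] : ExistsPeriodMapLinear N :=
  ⟨S21_pml N, fun _ => rfl⟩

end Fermat.Agent.S21
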